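import Fermat.Agent.RT.GammaH.NebHecke
import Mathlib.NumberTheory.ModularForms.QExpansion

/-!
# Cuspidality from a Hecke eigenvalue

If `ℓ ≡ 1` modulo the level, `T_ℓ` multiplies the value at every cusp by `ℓ + 1`.  So an
eigenform in weight two with another eigenvalue vanishes at all cusps.
-/

set_option autoImplicit false

noncomputable section

open CongruenceSubgroup UpperHalfPlane Matrix.SpecialLinearGroup ModularFormClass Filter
open scoped MatrixGroups ModularForm Topology Manifold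

namespace Fermat.Agent.Two.Galois

open Fermat.Agent.RT.GammaH

theorem val_mapGL_real (g : SL(2, ℤ)) :
    ((mapGL ℝ g : GL (Fin 2) ℝ) : Matrix (Fin 2) (Fin 2) ℝ) =
      (g : Matrix (Fin 2) (Fin 2) ℤ).map (Int.cast : ℤ → ℝ) := by
  ext i j
  simp

theorem slash_T_zpow_apply (g : ℍ → ℂ) (k : ℤ) (b : ℤ) (τ : ℍ) :
    (g ∣[k] (ModularGroup.T ^ b)) τ = g (((b : ℝ)) +ᵥ τ) := by
  rw [ModularForm.SL_slash_apply, modular_T_zpow_smul]
  have h : denom (mapGL ℝ (ModularGroup.T ^ b)) τ = 1 := by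
    rw [denom, val_mapGL_real, ModularGroup.coe_T_zpow]
    simp
  erw [h]
  simp

theorem tendsto_slash_T_zpow {g : ℍ → ℂ} {v : ℂ} (h : Tendsto g atImInfty (𝓝 v)) (k : ℤ) (b : ℤ) :
    Tendsto (g ∣[k] (ModularGroup.T ^ b)) atImInfty (𝓝 v) := by
  have h1 : Tendsto (fun τ : ℍ => (b : ℝ) +ᵥ τ) atImInfty atImInfty := by
    simp only [atImInfty, tendsto_comap_iff, Function.comp_def, vadd_im]
    exact tendsto_comap
  exact (h.comp h1).congr fun τ => (slash_T_zpow_apply g k b τ).symm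

theorem tendsto_slash_heckeDiag {g : ℍ → ℂ} {v : ℂ} (h : Tendsto g atImInfty (𝓝 v)) {p : ℕ}
    (hp : p ≠ 0) :
    Tendsto (g ∣[(2 : ℤ)] ModularForm.heckeDiagMatrix p) atImInfty (𝓝 ((p : ℂ) * v)) := by
  have h1 : Tendsto (fun τ : ℍ => ModularForm.heckeDiagMatrix p • τ) atImInfty atImInfty := by
    simp only [atImInfty, tendsto_comap_iff, Function.comp_def]
    have e : ∀ τ : ℍ, (ModularForm.heckeDiagMatrix p • τ).im = (p : ℝ) * τ.im := fun τ => by
      rw [← UpperHalfPlane.coe_im, ModularForm.coe_heckeDiagMatrix_smul hp]; simp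
    simp only [e]
    exact tendsto_comap.const_mul_atTop (by exact_mod_cast Nat.pos_of_ne_zero hp)
  refine ((h.comp h1).const_mul (p : ℂ)).congr fun τ => ?_
  rw [ModularForm.slash_heckeDiagMatrix_apply 2 hp]
  simp

theorem tendsto_slash_heckeMatrix {g : ℍ → ℂ} {v : ℂ} (h : Tendsto g atImInfty (𝓝 v)) {p : ℕ}
    (hp : p ≠ 0) (j : ℕ) :
    Tendsto (g ∣[(2 : ℤ)] ModularForm.heckeMatrix p j) atImInfty (𝓝 ((p : ℂ)⁻¹ * v)) := by
  have h1 : Tendsto (fun τ : ℍ => ModularForm.heckeMatrix p j • τ) atImInfty atImInfty := by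
    simp only [atImInfty, tendsto_comap_iff, Function.comp_def]
    have e : ∀ τ : ℍ, (ModularForm.heckeMatrix p j • τ).im = τ.im / (p : ℝ) := fun τ => by
      rw [← UpperHalfPlane.coe_im, ModularForm.coe_heckeMatrix_smul hp]
      simp [Complex.div_natCast_im]
    simp only [e]
    exact tendsto_comap.atTop_div_const (by exact_mod_cast Nat.pos_of_ne_zero hp)
  refine ((h.comp h1).const_mul (p : ℂ)⁻¹).congr fun τ => ?_
  rw [ModularForm.slash_heckeMatrix_apply 2 hp]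
  rfl

variable {L : ℕ} [NeZero L]

omit [NeZero L] in
theorem slash_eq_of_map_eq (f : ModularForm (Gamma1 L) 2) {g h : SL(2, ℤ)}
    (e : (g : Matrix (Fin 2) (Fin 2) ℤ).map (Int.cast : ℤ → ZMod L) =
      (h : Matrix (Fin 2) (Fin 2) ℤ).map (Int.cast : ℤ → ZMod L)) :
    ⇑f ∣[(2 : ℤ)] g = ⇑f ∣[(2 : ℤ)] h := by
  have e' : Matrix.SpecialLinearGroup.map (Int.castRingHom (ZMod L)) g =
      Matrix.SpecialLinearGroup.map (Int.castRingHom (ZMod L)) h := Subtype.ext e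
  have hmem : g * h⁻¹ ∈ Gamma1 L := by
    have hG : g * h⁻¹ ∈ Gamma L := Gamma_mem'.mpr (by rw [map_mul, map_inv, e', mul_inv_cancel])
    rw [Gamma_mem] at hG
    exact (Gamma1_mem L _).mpr ⟨hG.1, hG.2.2.2, hG.2.2.1⟩
  have hinv : ⇑f ∣[(2 : ℤ)] (g * h⁻¹) = ⇑f :=
    SlashInvariantFormClass.slash_action_eq f _ ⟨_, hmem, rfl⟩
  calc ⇑f ∣[(2 : ℤ)] g = ⇑f ∣[(2 : ℤ)] (g * h⁻¹ * h) := by rw [inv_mul_cancel_right]
    _ = ⇑f ∣[(2 : ℤ)] h := by rw [SlashAction.slash_mul, hinv]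

omit [NeZero L] in
theorem slash_T_zpow_mul (f : ModularForm (Gamma1 L) 2) (j : ℤ) (γ : SL(2, ℤ)) :
    ⇑f ∣[(2 : ℤ)] (ModularGroup.T ^ j * γ) = ⇑f ∣[(2 : ℤ)] γ := by
  have hmem : ModularGroup.T ^ j ∈ Gamma1 L := by simp [Gamma1_mem, ModularGroup.coe_T_zpow]
  have hinv : ⇑f ∣[(2 : ℤ)] (ModularGroup.T ^ j) = ⇑f :=
    SlashInvariantFormClass.slash_action_eq f _ ⟨_, hmem, rfl⟩
  rw [SlashAction.slash_mul, hinv]

/-- The value at every cusp exists. -/
theorem exists_tendsto_slash (f : ModularForm (Gamma1 L) 2) (γ : SL(2, ℤ)) :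
    ∃ v : ℂ, Tendsto (⇑f ∣[(2 : ℤ)] γ) atImInfty (𝓝 v) := by
  set g := ⇑f ∣[(2 : ℤ)] γ with hg
  have hT : g ∣[(2 : ℤ)] (ModularGroup.T ^ (L : ℤ)) = g := by
    rw [hg, ← SlashAction.slash_mul]
    refine slash_eq_of_map_eq f ?_
    rw [Matrix.SpecialLinearGroup.coe_mul, ModularGroup.coe_T_zpow]
    ext i j
    fin_cases i <;> fin_cases j <;> simp [Matrix.mul_apply, Fin.sum_univ_two]
  have hper : Function.Periodic (g ∘ ofComplex) (L : ℝ) := by
    intro w
    by_cases hw : 0 < w.im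
    · have hw' : 0 < (w + ((L : ℝ) : ℂ)).im := by simpa using hw
      simp only [Function.comp_apply, ofComplex_apply_of_im_pos hw', ofComplex_apply_of_im_pos hw]
      conv_rhs => rw [← hT, slash_T_zpow_apply]
      congr 1
      ext
      simp [add_comm]
    · have hw' : ¬ 0 < (w + ((L : ℝ) : ℂ)).im := by simpa using hw
      simp only [Function.comp_apply, ofComplex_apply_of_im_nonpos (not_lt.mp hw'),
        ofComplex_apply_of_im_nonpos (not_lt.mp hw)]
  have hhol : MDiff g := (ModularFormClass.holo f).slash 2 _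
  have hb : IsBoundedAtImInfty g := ModularFormClass.bdd_at_infty_slash f γ
  refine ⟨valueAtInfty g, ?_⟩
  have hL : (0 : ℝ) < L := by exact_mod_cast Nat.pos_of_ne_zero (NeZero.ne L)
  have hanal := analyticAt_cuspFunction_zero hL hper hhol hb
  rw [← cuspFunction_apply_zero hL hanal hper]
  refine (hanal.continuousAt.tendsto.comp (qParam_tendsto_atImInfty hL)).congr fun τ => ?_
  have := Function.Periodic.eq_cuspFunction hL.ne' hper (τ : ℂ)
  simpa [cuspFunction] using this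

variable {ℓ : ℕ}

omit [NeZero L] in
/-- The value of one translate at one cusp. -/
theorem tendsto_slash_mul (hℓ : ℓ.Prime) (hℓL : (ℓ : ZMod L) = 1) (f : ModularForm (Gamma1 L) 2)
    {G : GL (Fin 2) ℝ} {A : Matrix (Fin 2) (Fin 2) ℤ}
    (hG : (G : Matrix (Fin 2) (Fin 2) ℝ) = A.map (Int.cast : ℤ → ℝ)) (hdet : A.det = ℓ) {j : ℤ}
    (hA : A.map (Int.cast : ℤ → ZMod L) =
      (↑(ModularGroup.T ^ j) : Matrix (Fin 2) (Fin 2) ℤ).map (Int.cast : ℤ → ZMod L))
    (γ : SL(2, ℤ)) {v : ℂ} (hv : Tendsto (⇑f ∣[(2 : ℤ)] γ) atImInfty (𝓝 v)) :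
    Tendsto ((⇑f ∣[(2 : ℤ)] G) ∣[(2 : ℤ)] γ) atImInfty
      (𝓝 ((if (ℓ : ℤ) ∣ (A * γ) 0 0 ∧ (ℓ : ℤ) ∣ (A * γ) 1 0 then (ℓ : ℂ) else (ℓ : ℂ)⁻¹) * v)) := by
  set M : Matrix (Fin 2) (Fin 2) ℤ := A * γ with hM
  have hMdet : M 0 0 * M 1 1 - M 0 1 * M 1 0 = ℓ := by
    rw [← Matrix.det_fin_two, hM, Matrix.det_mul, hdet, γ.det_coe, mul_one]
  have hMmod : M.map (Int.cast : ℤ → ZMod L) =
      (↑(ModularGroup.T ^ j * γ) : Matrix (Fin 2) (Fin 2) ℤ).map (Int.cast : ℤ → ZMod L) := by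
    rw [hM, Matrix.SpecialLinearGroup.coe_mul]
    show (A * (γ : Matrix (Fin 2) (Fin 2) ℤ)).map (Int.castRingHom (ZMod L)) =
      ((↑(ModularGroup.T ^ j) : Matrix (Fin 2) (Fin 2) ℤ) * (γ : Matrix (Fin 2) (Fin 2) ℤ)).map
        (Int.castRingHom (ZMod L))
    rw [Matrix.map_mul, Matrix.map_mul]
    exact congrArg (fun X => X * (γ : Matrix (Fin 2) (Fin 2) ℤ).map (Int.castRingHom (ZMod L))) hA
  have hGγ : ((G * mapGL ℝ γ : GL (Fin 2) ℝ) : Matrix (Fin 2) (Fin 2) ℝ) =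
      M.map (Int.cast : ℤ → ℝ) := by
    rw [Units.val_mul, hG, hM]
    show _ = (A * (γ : Matrix (Fin 2) (Fin 2) ℤ)).map (Int.castRingHom ℝ)
    rw [Matrix.map_mul]
    rfl
  rw [ModularForm.SL_slash, ← SlashAction.slash_mul]
  show Tendsto (⇑f ∣[(2 : ℤ)] (G * mapGL ℝ γ)) _ _
  have hentry : ∀ i i', (M i i' : ZMod L) =
      ((↑(ModularGroup.T ^ j * γ) : Matrix (Fin 2) (Fin 2) ℤ) i i' : ZMod L) :=
    fun i i' => congrFun (congrFun hMmod i) i'
  split_ifs with hdiv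
  · obtain ⟨⟨a, ha⟩, c, hc⟩ := hdiv
    have hg : (!![a, M 0 1; c, M 1 1] : Matrix (Fin 2) (Fin 2) ℤ).det = 1 := by
      rw [Matrix.det_fin_two_of]
      refine mul_left_cancel₀ (Int.natCast_ne_zero.2 hℓ.ne_zero) ?_
      linear_combination hMdet - M 1 1 * ha + M 0 1 * hc
    let g' : SL(2, ℤ) := ⟨_, hg⟩
    have heq : G * mapGL ℝ γ = mapGL ℝ g' * ModularForm.heckeDiagMatrix ℓ := by
      refine Units.ext ?_
      rw [hGγ, Units.val_mul, val_mapGL_real, ModularForm.val_heckeDiagMatrix hℓ.ne_zero]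
      ext i i'
      fin_cases i <;> fin_cases i' <;>
        simp [g', Matrix.mul_apply, Fin.sum_univ_two, ha, hc, mul_comm]
    rw [heq, SlashAction.slash_mul]
    show Tendsto ((⇑f ∣[(2 : ℤ)] g') ∣[(2 : ℤ)] ModularForm.heckeDiagMatrix ℓ) _ _
    refine tendsto_slash_heckeDiag ?_ hℓ.ne_zero
    convert hv using 1
    refine (slash_eq_of_map_eq f ?_).trans (slash_T_zpow_mul f j γ)
    ext i i'
    simp only [Matrix.map_apply, ← hentry]
    fin_cases i <;> fin_cases i' <;> simp [g', ha, hc, hℓL]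
  · have hcop : IsCoprime (M 0 0) (M 1 0) := by
      rw [Int.isCoprime_iff_gcd_eq_one]
      have h1 : (Int.gcd (M 0 0) (M 1 0) : ℤ) ∣ ℓ := by
        rw [← hMdet]
        exact dvd_sub ((Int.gcd_dvd_left _ _).mul_right _) ((Int.gcd_dvd_right _ _).mul_left _)
      rcases (Nat.dvd_prime hℓ).1 (Int.natCast_dvd_natCast.1 h1) with h | h
      · exact h
      · exact absurd ⟨h ▸ Int.gcd_dvd_left _ _, h ▸ Int.gcd_dvd_right _ _⟩ hdiv
    obtain ⟨x, y, hxy⟩ := hcop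
    have hg : (!![M 0 0, -y; M 1 0, x] : Matrix (Fin 2) (Fin 2) ℤ).det = 1 := by
      rw [Matrix.det_fin_two_of]; linear_combination hxy
    set b : ℤ := x * M 0 1 + y * M 1 1
    let g' : SL(2, ℤ) := ⟨_, hg⟩
    have heq : G * mapGL ℝ γ = mapGL ℝ g' * ModularForm.heckeMatrix ℓ 0 *
        mapGL ℝ (ModularGroup.T ^ b) := by
      refine Units.ext ?_
      rw [hGγ, Units.val_mul, Units.val_mul, val_mapGL_real, val_mapGL_real,
        ModularGroup.coe_T_zpow, ModularForm.val_heckeMatrix hℓ.ne_zero]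
      have e01 : M 0 1 = M 0 0 * b + -y * ℓ := by
        linear_combination -M 0 1 * hxy - y * hMdet
      have e11 : M 1 1 = M 1 0 * b + x * ℓ := by
        linear_combination -M 1 1 * hxy + x * hMdet
      have r01 : (M 0 1 : ℝ) = M 0 0 * b + -y * ℓ := by exact_mod_cast e01
      have r11 : (M 1 1 : ℝ) = M 1 0 * b + x * ℓ := by exact_mod_cast e11
      ext i i'
      fin_cases i <;> fin_cases i' <;>
        simp [g', Matrix.mul_apply, Fin.sum_univ_two, r01, r11]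
    rw [heq, SlashAction.slash_mul, SlashAction.slash_mul]
    show Tendsto (((⇑f ∣[(2 : ℤ)] g') ∣[(2 : ℤ)] ModularForm.heckeMatrix ℓ 0) ∣[(2 : ℤ)]
      (ModularGroup.T ^ b)) _ _
    refine tendsto_slash_T_zpow (tendsto_slash_heckeMatrix ?_ hℓ.ne_zero 0) 2 b
    have hb : ⇑f ∣[(2 : ℤ)] (g' * ModularGroup.T ^ b) = ⇑f ∣[(2 : ℤ)] γ := by
      refine (slash_eq_of_map_eq f ?_).trans (slash_T_zpow_mul f j γ)
      have e01 : (M 0 1 : ZMod L) = M 0 0 * b + -y := by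
        have := congrArg (Int.cast : ℤ → ZMod L)
          (show M 0 1 = M 0 0 * b + -y * ℓ by linear_combination -M 0 1 * hxy - y * hMdet)
        simpa [hℓL] using this
      have e11 : (M 1 1 : ZMod L) = M 1 0 * b + x := by
        have := congrArg (Int.cast : ℤ → ZMod L)
          (show M 1 1 = M 1 0 * b + x * ℓ by linear_combination -M 1 1 * hxy + x * hMdet)
        simpa [hℓL] using this
      rw [Matrix.SpecialLinearGroup.coe_mul, ModularGroup.coe_T_zpow]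
      ext i i'
      simp only [Matrix.map_apply, ← hentry]
      fin_cases i <;> fin_cases i' <;>
        simp [g', Matrix.mul_apply, Fin.sum_univ_two, e01, e11]
    have h := tendsto_slash_T_zpow hv 2 (-b)
    rw [← hb, ← SlashAction.slash_mul, mul_assoc, ← zpow_add, add_neg_cancel, zpow_zero,
      mul_one] at h
    exact h

/-- `T_ℓ` multiplies the value at each cusp by `ℓ + 1`. -/
theorem tendsto_heckeT_slash (hℓ : ℓ.Prime) (hℓL : (ℓ : ZMod L) = 1) (f : ModularForm (Gamma1 L) 2)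
    (γ : SL(2, ℤ)) {v : ℂ} (hv : Tendsto (⇑f ∣[(2 : ℤ)] γ) atImInfty (𝓝 v)) :
    Tendsto (ModularForm.heckeT 2 ℓ ⇑f ∣[(2 : ℤ)] γ) atImInfty (𝓝 (((ℓ : ℂ) + 1) * v)) := by
  classical
  have := Fact.mk hℓ
  have hℓ' : (ℓ : ℤ) ≠ 0 := Int.natCast_ne_zero.2 hℓ.ne_zero
  set p := γ 0 0
  set r := γ 1 0
  set w : Prop → ℂ := fun P => if P then (ℓ : ℂ) else (ℓ : ℂ)⁻¹
  have hj : ∀ j : ℕ, Tendsto ((⇑f ∣[(2 : ℤ)] ModularForm.heckeMatrix ℓ j) ∣[(2 : ℤ)] γ) atImInfty
      (𝓝 (w ((ℓ : ℤ) ∣ p + j * r) * v)) := fun j => by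
    have h := tendsto_slash_mul hℓ hℓL f (A := !![1, (j : ℤ); 0, (ℓ : ℤ)]) (j := (j : ℤ))
      (G := ModularForm.heckeMatrix ℓ j)
      (by rw [ModularForm.val_heckeMatrix hℓ.ne_zero]; ext a b; fin_cases a <;> fin_cases b <;> simp)
      (by simp [Matrix.det_fin_two_of])
      (by rw [ModularGroup.coe_T_zpow]; ext a b; fin_cases a <;> fin_cases b <;> simp [hℓL]) γ hv
    convert h using 3
    simp [w, p, r, Matrix.mul_apply, Fin.sum_univ_two]
  have hd : Tendsto ((⇑f ∣[(2 : ℤ)] ModularForm.heckeDiagMatrix ℓ) ∣[(2 : ℤ)] γ) atImInfty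
      (𝓝 (w ((ℓ : ℤ) ∣ r) * v)) := by
    have h := tendsto_slash_mul hℓ hℓL f (A := !![(ℓ : ℤ), 0; 0, 1]) (j := 0)
      (G := ModularForm.heckeDiagMatrix ℓ)
      (by rw [ModularForm.val_heckeDiagMatrix hℓ.ne_zero]; ext a b; fin_cases a <;> fin_cases b <;> simp)
      (by simp [Matrix.det_fin_two_of])
      (by ext a b; fin_cases a <;> fin_cases b <;> simp [hℓL]) γ hv
    convert h using 3
    simp [w, r, Matrix.mul_apply, Fin.sum_univ_two]
  have hsum : (∑ j ∈ Finset.range ℓ, w ((ℓ : ℤ) ∣ p + j * r)) + w ((ℓ : ℤ) ∣ r) = ℓ + 1 := by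
    have hℓC : (ℓ : ℂ) ≠ 0 := Nat.cast_ne_zero.2 hℓ.ne_zero
    by_cases hr : (ℓ : ℤ) ∣ r
    · have hp : ¬ (ℓ : ℤ) ∣ p := fun hp => by
        have h1 : (ℓ : ℤ) ∣ 1 := by
          rw [← γ.det_coe, Matrix.det_fin_two]
          exact dvd_sub (hp.mul_right _) (hr.mul_left _)
        exact hℓ.one_lt.ne' (by exact_mod_cast Int.eq_one_of_dvd_one (by positivity) h1)
      have hall : ∀ j : ℕ, ¬ (ℓ : ℤ) ∣ p + j * r := fun j h =>
        hp ((dvd_add_left (hr.mul_left _)).1 h)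
      simp only [w, hall, hr, if_false, if_true, Finset.sum_const, Finset.card_range, nsmul_eq_mul]
      rw [mul_inv_cancel₀ hℓC, add_comm]
    · have hr' : (r : ZMod ℓ) ≠ 0 := by rwa [Ne, ZMod.intCast_zmod_eq_zero_iff_dvd]
      set j₀ := (-(p : ZMod ℓ) / (r : ZMod ℓ)).val
      have hiff : ∀ j ∈ Finset.range ℓ, ((ℓ : ℤ) ∣ p + j * r ↔ j = j₀) := fun j hj => by
        rw [← ZMod.intCast_zmod_eq_zero_iff_dvd]
        constructor
        · intro h
          push_cast at h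
          show j = ZMod.val _
          rw [show -(p : ZMod ℓ) / (r : ZMod ℓ) = (j : ZMod ℓ) by
            rw [div_eq_iff hr']; linear_combination -h,
            ZMod.val_cast_of_lt (Finset.mem_range.1 hj)]
        · rintro rfl
          push_cast
          rw [ZMod.natCast_zmod_val, div_mul_cancel₀ _ hr', add_neg_cancel]
      have hterm : ∀ j ∈ Finset.range ℓ, w ((ℓ : ℤ) ∣ p + j * r) =
          (ℓ : ℂ)⁻¹ + if j = j₀ then (ℓ : ℂ) - (ℓ : ℂ)⁻¹ else 0 := fun j hj => by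
        simp only [w, hiff j hj]
        split_ifs <;> ring
      rw [Finset.sum_congr rfl hterm, Finset.sum_add_distrib, Finset.sum_ite_eq',
        if_pos (Finset.mem_range.2 (ZMod.val_lt _)), Finset.sum_const, Finset.card_range,
        nsmul_eq_mul, mul_inv_cancel₀ hℓC]
      simp only [w, if_neg hr]
      ring
  have h := (tendsto_finsetSum (Finset.range ℓ) fun j _ => hj j).add hd
  rw [← Finset.sum_mul, ← add_mul, hsum] at h
  refine h.congr fun τ => ?_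
  rw [ModularForm.heckeT_def, SlashAction.add_slash, SlashAction.sum_slash, Pi.add_apply,
    Finset.sum_apply]

/-- Cuspidality from an eigenvalue other than `ℓ + 1`. -/
theorem isNeb_of_eigen {χ : DirichletCharacter ℂ L} (f : ModularForm (Gamma1 L) 2)
    (hneb : ∀ γ ∈ Gamma0 L, ⇑f ∣[(2 : ℤ)] γ = χ ((γ 1 1 : ℤ) : ZMod L) • ⇑f) {a : ℕ → ℂ}
    (ha : HasCoeff ⇑f a) (hℓ : ℓ.Prime) (hℓL : (ℓ : ZMod L) = 1) {c : ℂ}
    (heig : ∀ n, seqOp (nebWeight χ) ℓ a n = c * a n) (hc : c ≠ ℓ + 1) : IsNeb L χ ⇑f := by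
  have h1 := DeligneSerre.one_mem_strictPeriods_gamma1 (N := L)
  have hq : ∀ n, qCoeff ⇑f n = a n := fun n =>
    (ModularFormClass.qExpansion_coeff_unique (f := f) one_pos h1 (c := a)
      (fun τ => by simpa [smul_eq_mul] using ha τ) n).symm
  have hT : HasCoeff (ModularForm.heckeT 2 ℓ ⇑f) fun n => c * a n := fun τ => by
    refine (P2MW.S_UpperHalfPlane_qCoeff_heckeU.M4cP1W2.hasSum_heckeT hℓ.ne_zero
      (by simpa using SlashInvariantFormClass.periodic_comp_ofComplex f h1)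
      (ModularFormClass.holo f)
      (by simpa [SlashAction.slash_one] using ModularFormClass.bdd_at_infty_slash f (1 : SL(2, ℤ)))
      2 τ).congr_fun fun n => ?_
    simp only [ModularForm.coeffHeckeT_apply, hq, smul_eq_mul]
    rw [← heig n, seqOp, nebWeight, hℓL, map_one, one_mul]
    norm_num
  have hfun : ModularForm.heckeT 2 ℓ ⇑f = c • ⇑f := hT.ext (ha.smul c)
  have hzero : ∀ γ : SL(2, ℤ), IsZeroAtImInfty (⇑f ∣[(2 : ℤ)] γ) := fun γ => by
    obtain ⟨v, hv⟩ := exists_tendsto_slash f γ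
    have h := tendsto_heckeT_slash hℓ hℓL f γ hv
    rw [hfun, ModularForm.SL_smul_slash] at h
    have hcv : c * v = ((ℓ : ℂ) + 1) * v := tendsto_nhds_unique (hv.const_mul c) h
    rw [(mul_eq_mul_right_iff.1 hcv).resolve_left hc] at hv
    exact hv
  let F : CuspForm (Gamma1 L) 2 := DeligneSerre.mkCuspForm (Gamma1 L) 2 ⇑f
    (fun γ hγ => SlashInvariantFormClass.slash_action_eq f _ ⟨γ, hγ, rfl⟩)
    (ModularFormClass.holo f) hzero
  exact ⟨⟨ModularFormClass.holo f, fun A => OnePoint.isZeroAt_infty_iff.1 <|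
    P2MW.S_CuspFormClass_isZeroAt_heckeT.ModularForm.S06W2.isZeroAt_slash_ratCast F A Fact.out⟩,
    hneb⟩

end Fermat.Agent.Two.Galois
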