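import Fermat.Agent.GaloisReps.CoeffExt
import Fermat.Agent.RT.Glue.Points
import Fermat.Agent.ConductorLevel.Eigen
import Fermat.Agent.IntegralStructure.AutComplex
import Fermat.Agent.IntegralStructure.Main
import Fermat.Agent.Arith.Frobenius
import Fermat.Agent.GaloisReps.Attach
import Fermat.Agent.Two.Inputs

/-!
# A common coefficient ring for finitely many eigenforms

Finitely many eigen characters take values in one finite extension `O` of `ℤ_p` embedded in `ℂ`,
compatibly on algebraic numbers with a given valuation subring over `p`. The levels of the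
congruent forms are odd and squarefree.
-/

set_option autoImplicit false
set_option synthInstance.maxHeartbeats 200000
set_option linter.style.haveILetI false

noncomputable section

namespace Fermat.Agent.Two.Galois

open IsLocalRing CongruenceSubgroup ModularFormClass
open scoped Pointwise
open GaloisReps (FullHecke)

local notation "Q̄" => AlgebraicClosure ℚ

section Valuation

variable {K L : Type*} [Field K] [Field L]

theorem mem_nonunits_iff_inv (A : ValuationSubring K) (x : K) :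
    x ∈ A.nonunits ↔ x = 0 ∨ x⁻¹ ∉ A := by
  rcases eq_or_ne x 0 with rfl | hx
  · exact ⟨fun _ => Or.inl rfl, fun _ => A.nonunits.zero_mem⟩
  · rw [ValuationSubring.mem_nonunits_iff, ← ValuationSubring.valuation_le_one_iff, map_inv₀,
      not_le, one_lt_inv₀ ((zero_lt_iff).2 ((Valuation.ne_zero_iff _).2 hx))]
    simp [hx]

theorem mem_nonunits_comap (A : ValuationSubring K) (f : L →+* K) (x : L) :
    x ∈ (A.comap f).nonunits ↔ f x ∈ A.nonunits := by
  rw [mem_nonunits_iff_inv, mem_nonunits_iff_inv, ValuationSubring.mem_comap, map_inv₀,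
    map_eq_zero]

end Valuation

/-- An algebraic number is in the image of any embedding of an algebraic closure. -/
theorem exists_eq_of_isAlgebraic (ι : Q̄ →ₐ[ℚ] ℂ) {z : ℂ} (hz : IsAlgebraic ℚ z) :
    ∃ q, ι q = z := by
  have hs : ((minpoly ℚ z).map (algebraMap ℚ Q̄)).Splits := IsAlgClosed.splits _
  have h1 : z ∈ (((minpoly ℚ z).map (algebraMap ℚ Q̄)).map (ι : Q̄ →+* ℂ)).roots := by
    rw [Polynomial.map_map, show (ι : Q̄ →+* ℂ).comp (algebraMap ℚ Q̄) = algebraMap ℚ ℂ from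
      ι.comp_algebraMap]
    exact (Polynomial.mem_roots_map (minpoly.ne_zero hz.isIntegral)).2 (minpoly.aeval ℚ z)
  rw [hs.roots_map] at h1
  obtain ⟨q, -, hq⟩ := Multiset.mem_map.1 h1
  exact ⟨q, hq⟩

variable {p : ℕ} [Fact p.Prime]

local instance finite_residue_padicInt : Finite (ResidueField ℤ_[p]) :=
  Finite.of_equiv _ (PadicInt.residueField (p := p)).symm.toEquiv

/-- An isomorphism of the algebraic closure of the `p`-adic numbers with `ℂ`, with a valuation
subring of `ℂ` containing the integral elements and agreeing with a given one on algebraic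
numbers. -/
theorem exists_compatible_ringEquiv (A : ValuationSubring ℂ) (hA : (p : ℂ) ∈ A.nonunits) :
    ∃ (e : AlgebraicClosure (FractionRing ℤ_[p]) ≃+* ℂ) (B : ValuationSubring ℂ),
      (p : ℂ) ∈ B.nonunits ∧ (∀ x, IsIntegral ℤ_[p] x → e x ∈ B) ∧
        ∀ z : ℂ, IsAlgebraic ℚ z → (z ∈ B.nonunits ↔ z ∈ A.nonunits) := by
  classical
  set K := AlgebraicClosure (FractionRing ℤ_[p])
  obtain ⟨e₀⟩ := RT.Glue.nonempty_ringEquiv_complex ℤ_[p] (RingHom.id ℤ_[p])
  obtain ⟨V, hV⟩ := (LocalSubring.range (algebraMap ℤ_[p] K)).exists_le_valuationSubring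
  obtain ⟨hle, hloc⟩ := hV
  have hpV : (p : K) ∈ V.nonunits := by
    refine (ValuationSubring.coe_mem_nonunits_iff (A := V) (a := ⟨(p : K),
      hle ⟨(p : ℤ_[p]), map_natCast _ p⟩⟩)).2 ?_
    refine (IsLocalRing.mem_maximalIdeal _).2 fun hu => ?_
    have hu' := hloc.map_nonunit ⟨(p : K), ⟨(p : ℤ_[p]), map_natCast _ p⟩⟩ hu
    obtain ⟨u, hu⟩ := hu'.exists_right_inv
    obtain ⟨⟨_, a, rfl⟩, ha⟩ : ∃ u', u' = u := ⟨u, rfl⟩
    rw [← ha] at hu
    have h1 : (p : ℤ_[p]) * a = 1 := by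
      refine (show Function.Injective (algebraMap ℤ_[p] K) by
        rw [IsScalarTower.algebraMap_eq ℤ_[p] (FractionRing ℤ_[p]) K]
        exact (algebraMap (FractionRing ℤ_[p]) K).injective.comp (IsFractionRing.injective _ _)) ?_
      rw [map_mul, map_natCast, map_one]
      exact congrArg Subtype.val hu
    exact (PadicInt.prime_p (p := p)).not_isUnit (IsUnit.of_mul_eq_one _ h1)
  have hint : ∀ x : K, IsIntegral ℤ_[p] x → x ∈ V := fun x hx => by
    let f : ℤ_[p] →+* V := (algebraMap ℤ_[p] K).codRestrict V fun a => hle ⟨a, rfl⟩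
    let : Algebra ℤ_[p] V := f.toAlgebra
    have : IsScalarTower ℤ_[p] V K := IsScalarTower.of_algebraMap_eq fun _ => rfl
    obtain ⟨y, hy⟩ := IsIntegrallyClosed.isIntegral_iff.1 (hx.tower_top (A := V))
    exact hy ▸ y.2
  let B₀ : ValuationSubring ℂ := V.comap (e₀.symm : ℂ →+* K)
  have hB₀ : (p : ℂ) ∈ B₀.nonunits := by
    rw [mem_nonunits_comap, map_natCast]; exact hpV
  let ι : Q̄ →ₐ[ℚ] ℂ := IsAlgClosed.lift
  have hP : (A.comap (ι : Q̄ →+* ℂ)).LiesOverPrime p := by
    show ((p : Q̄)) ∈ _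
    rw [mem_nonunits_comap, map_natCast]; exact hA
  have hP₀ : (B₀.comap (ι : Q̄ →+* ℂ)).LiesOverPrime p := by
    show ((p : Q̄)) ∈ _
    rw [mem_nonunits_comap, map_natCast]; exact hB₀
  obtain ⟨g, hg⟩ := Arith.exists_smul_eq hP₀ hP Fact.out
  letI : Algebra Q̄ ℂ := (ι : Q̄ →+* ℂ).toAlgebra
  obtain ⟨s, hs⟩ := exists_isTranscendenceBasis Q̄ ℂ
  obtain ⟨τ, hτ⟩ := IntegralStructure.exists_ringEquiv_extending hs
    (MvPolynomial.mapEquiv _ g.toRingEquiv)
  have hτι : ∀ q, τ (ι q) = ι (g q) := fun q => by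
    have h := hτ (MvPolynomial.C q)
    simp only [MvPolynomial.aeval_C, MvPolynomial.mapEquiv_apply, MvPolynomial.map_C] at h
    exact h
  refine ⟨e₀.trans τ, B₀.comap (τ.symm : ℂ →+* ℂ), ?_, fun x hx => ?_, fun z hz => ?_⟩
  · rw [mem_nonunits_comap, map_natCast]; exact hB₀
  · show e₀.symm (τ.symm (τ (e₀ x))) ∈ V
    rw [RingEquiv.symm_apply_apply, RingEquiv.symm_apply_apply]
    exact hint x hx
  · obtain ⟨q, rfl⟩ := exists_eq_of_isAlgebraic ι hz
    have hsymm : τ.symm (ι q) = ι (g⁻¹ q) := τ.injective (by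
      rw [RingEquiv.apply_symm_apply, hτι, ← AlgEquiv.mul_apply, mul_inv_cancel,
        AlgEquiv.one_apply])
    rw [mem_nonunits_comap]
    show τ.symm (ι q) ∈ B₀.nonunits ↔ _
    rw [hsymm, show (ι q ∈ A.nonunits ↔ q ∈ (A.comap (ι : Q̄ →+* ℂ)).nonunits) from
      (mem_nonunits_comap A _ q).symm, show (ι (g⁻¹ q) ∈ B₀.nonunits ↔
      g⁻¹ q ∈ (B₀.comap (ι : Q̄ →+* ℂ)).nonunits) from (mem_nonunits_comap B₀ _ _).symm, ← hg,
      mem_nonunits_iff_inv, mem_nonunits_iff_inv,
      ValuationSubring.mem_pointwise_smul_iff_inv_smul_mem]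
    refine or_congr ⟨fun h => ?_, fun h => by rw [h, map_zero]⟩ ?_
    · exact g⁻¹.injective (h.trans (map_zero _).symm)
    · rw [← map_inv₀]; rfl

/-- Finitely many eigen characters take values in one coefficient ring. -/
theorem exists_coeff_family {I : Type} [Finite I] (M : I → ℕ) [∀ i, NeZero (M i)]
    (g : ∀ i, CuspForm (Gamma0 (M i)) 2) (hg : ∀ i, (g i).IsNormalizedEigenform)
    (A : ValuationSubring ℂ) (hA : (p : ℂ) ∈ A.nonunits) :
    ∃ (O : Type) (_ : CommRing O) (_ : IsDomain O) (_ : IsDiscreteValuationRing O)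
      (_ : IsAdicComplete (maximalIdeal O) O) (_ : Finite (ResidueField O)) (_ : CharZero O)
      (_ : Algebra ℤ_[p] O) (_ : Module.Finite ℤ_[p] O)
      (B : ValuationSubring ℂ) (j : O →+* ℂ) (θ : ∀ i, FullHecke (M i) →+* O),
      (p : ℂ) ∈ B.nonunits ∧ Function.Injective j ∧ (∀ x, j x ∈ B) ∧
        (p : O) ∈ maximalIdeal O ∧ (∀ x, x ∈ maximalIdeal O ↔ j x ∈ B.nonunits) ∧
        (∀ z : ℂ, IsAlgebraic ℚ z → (z ∈ B.nonunits ↔ z ∈ A.nonunits)) ∧
        ∀ i, j.comp (θ i) = ConductorLevel.eigenChar (hg i) ∅ := by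
  classical
  obtain ⟨e, B, hpB, hint, hcomp⟩ := exists_compatible_ringEquiv (p := p) A hA
  have hfin : ∀ i, Module.Finite ℤ (FullHecke (M i)) := fun i =>
    IntegralStructure.heckeAlgebra_finite (M i) 2 ∅
  choose r t ht using fun i =>
    Submodule.fg_iff_exists_fin_generating_family.mp (hfin i).fg_top
  let χ : ∀ i, FullHecke (M i) →+* ℂ := fun i => ConductorLevel.eigenChar (hg i) ∅
  let G : Set ℂ := Set.range fun x : Σ i, Fin (r i) => χ x.1 (t x.1 x.2)
  let T : Subalgebra ℤ ℂ := Algebra.adjoin ℤ G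
  have hT : Module.Finite ℤ T := Module.Finite.iff_fg.2
    (fg_adjoin_of_finite (Set.finite_range _) (by
      rintro _ ⟨⟨i, l⟩, rfl⟩
      exact (Algebra.IsIntegral.isIntegral (R := ℤ) (t i l)).map (χ i).toIntAlgHom))
  have hmem : ∀ i x, χ i x ∈ T := fun i x => by
    have hx : x ∈ Submodule.span ℤ (Set.range (t i)) := (ht i).symm ▸ trivial
    induction hx using Submodule.span_induction with
    | mem x hx => obtain ⟨l, rfl⟩ := hx; exact Algebra.subset_adjoin ⟨⟨i, l⟩, rfl⟩
    | zero => rw [map_zero]; exact zero_mem T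
    | add x y _ _ hx hy => rw [map_add]; exact add_mem hx hy
    | smul c x _ hx => rw [map_zsmul]; exact zsmul_mem hx c
  obtain ⟨O, i1, i2, i3, i4, i5, i6, i7, i8, i9, j₀, θ', -, hjinj, hcomm, hθ⟩ :=
    GaloisReps.exists_coeffExt (A := T) ℤ_[p] ((e.symm : ℂ →+* _).comp T.val.toRingHom)
  let j : O →+* ℂ := (e : _ →+* ℂ).comp j₀
  have hjB : ∀ x, j x ∈ B := fun x => hint _ (by
    let f : O →ₐ[ℤ_[p]] AlgebraicClosure (FractionRing ℤ_[p]) :=
      { j₀ with commutes' := fun c => DFunLike.congr_fun hcomm c }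
    exact (Algebra.IsIntegral.isIntegral (R := ℤ_[p]) x).map f)
  have hpO : (p : O) ∈ maximalIdeal O := by
    rw [← map_natCast (algebraMap ℤ_[p] O)]
    exact map_nonunit (algebraMap ℤ_[p] O) _
      ((IsLocalRing.mem_maximalIdeal _).2 PadicInt.prime_p.not_isUnit)
  refine ⟨O, i1, i2, i3, i4, i5, i6, i7, i8, B, j,
    fun i => θ'.comp ((χ i).codRestrict T (hmem i)), hpB, e.injective.comp hjinj, hjB, hpO,
    fun x => ⟨fun hx => ?_, fun hx => ?_⟩, hcomp, fun i => ?_⟩
  · have hrad : x ∈ (Ideal.span {(p : O)}).radical := by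
      rw [Ideal.radical_eq_sInf, Ideal.mem_sInf]
      rintro J ⟨hJ, hJp⟩
      have hJ0 : J ≠ ⊥ := fun h => (Nat.cast_ne_zero.2 (Fact.out : p.Prime).ne_zero : (p : O) ≠ 0)
        ((Submodule.mem_bot O).1 (h ▸ hJ (Ideal.mem_span_singleton_self _)))
      rw [eq_maximalIdeal (hJp.isMaximal hJ0)]
      exact hx
    obtain ⟨N, hN⟩ := hrad
    obtain ⟨y, hy⟩ := Ideal.mem_span_singleton.1 hN
    rw [ValuationSubring.mem_nonunits_iff] at hpB ⊢
    have h1 : B.valuation (j x) ^ N < 1 := by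
      rw [← map_pow, ← map_pow j, hy, map_mul j, map_natCast, map_mul]
      calc B.valuation (p : ℂ) * B.valuation (j y) ≤ B.valuation (p : ℂ) * 1 :=
            mul_le_mul_right ((ValuationSubring.valuation_le_one_iff B _).2 (hjB y)) _
        _ < 1 := by rw [mul_one]; exact hpB
    by_contra hlt
    exact absurd h1 (not_lt.2 (one_le_pow₀ (not_lt.1 hlt)))
  · by_contra hu
    obtain ⟨u, hu⟩ := of_not_not (mt (IsLocalRing.mem_maximalIdeal x).2 hu)
    rw [ValuationSubring.mem_nonunits_iff] at hx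
    have h1 : B.valuation (j x) * B.valuation (j ↑u⁻¹) = 1 := by
      rw [← map_mul, ← map_mul, ← hu, Units.mul_inv, map_one, map_one]
    have h2 := (ValuationSubring.valuation_le_one_iff B _).2 (hjB ↑u⁻¹)
    exact absurd (h1 ▸ mul_lt_one_of_lt_of_le hx h2) (lt_irrefl _)
  · refine RingHom.ext fun x => ?_
    show e (j₀ (θ' ⟨χ i x, hmem i x⟩)) = _
    rw [← RingHom.comp_apply j₀ θ', hθ]
    exact e.apply_symm_apply _

section Level

/-- The level of the congruent forms is odd and squarefree. -/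
theorem squarefree_level {W : WeierstrassCurve ℤ} (hW : TwoCurve W) {V : Finset ℕ} {n : ℕ}
    (hV : ∀ v ∈ V, AuxPrime W hW.Δ_ne_zero v n) :
    Squarefree (badLevel W * ∏ v ∈ V, v) ∧ ¬ 2 ∣ badLevel W * ∏ v ∈ V, v := by
  refine ⟨(Nat.squarefree_mul ?_).2 ⟨squarefree_badLevel W, ?_⟩, fun h => ?_⟩
  · refine Nat.Coprime.prod_right fun v hv => ?_
    rw [Nat.coprime_comm, (hV v hv).prime.coprime_iff_not_dvd,
      prime_dvd_badLevel_iff hW.Δ_ne_zero (hV v hv).prime]
    exact (hV v hv).good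
  · refine Finset.squarefree_prod_of_pairwise_isCoprime (fun a ha b hb hab => ?_) fun a ha => ?_
    · exact Nat.coprime_iff_isRelPrime.1
        ((Nat.coprime_primes (hV a ha).prime (hV b hb).prime).2 hab)
    · exact (hV a ha).prime.squarefree
  · rcases Nat.prime_two.dvd_mul.1 h with h | h
    · exact hW.two_not_dvd_Δ ((prime_dvd_badLevel_iff hW.Δ_ne_zero Nat.prime_two).1 h)
    · obtain ⟨v, hv, hv'⟩ := Nat.prime_two.prime.exists_mem_finset_dvd h
      exact (hV v hv).ne_two ((Nat.prime_dvd_prime_iff_eq Nat.prime_two (hV v hv).prime).1 hv').symm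

end Level

end Fermat.Agent.Two.Galois
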