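import Fermat.Agent.Two.Galois.Support
import Fermat.Agent.RT.GammaH.Twist
import Fermat.Agent.RT.GammaH.NormBound

/-!
# Eigenforms with `U_v = ±1`

At a prime `v` exactly dividing the level, an eigenform with `a_v = ±1` does not have the
eigenvalues of an eigenform of level prime to `v`, and its sign is determined by the eigenvalues at
the good primes.
-/

set_option autoImplicit false

noncomputable section

open CongruenceSubgroup UpperHalfPlane ModularFormClass
open scoped MatrixGroups ModularForm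

namespace Fermat.Agent.Two.Galois

open RT.GammaH (IsNeb HasCoeff isNeb_cuspForm qCoeff_eq_of_coprime)

/-- The part of a cusp form prime to a divisor of the level. -/
theorem exists_depleted {N r : ℕ} [NeZero N] [NeZero r] (hr : r ∣ N)
    (F : CuspForm (Gamma0 N) 2) :
    ∃ F', IsNeb (N * r) (1 : DirichletCharacter ℂ 1) F' ∧
      HasCoeff F' fun n => if n.Coprime r then qCoeff F n else 0 := by
  obtain ⟨F', h1, h2, -⟩ := RT.GammaH.exists_deplete hr (one_dvd _) (isNeb_cuspForm F)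
    ((isNeb_cuspForm F).hasCoeff (one_dvd _))
  exact ⟨F', h1, h2⟩

/-- `a(n v) = a_v a(n)` for `v` dividing the level. -/
theorem qCoeff_mul_prime {N v : ℕ} [NeZero N] {F : CuspForm (Gamma0 N) 2}
    (hF : F.IsNormalizedEigenform) (hv : v.Prime) (hvN : v ∣ N) (n : ℕ) :
    qCoeff F (n * v) = qCoeff F v * qCoeff F n := by
  have h := (Newforms.hOp_eq_smul_iff hv F _).1 (Newforms.hOp_of_isNormalizedEigenform hF hv) n
  rw [HeckeDuality.eulerWeight, if_pos hvN] at h
  simpa using h

variable {v R : ℕ}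

theorem coprime_mul_iff_of_not_dvd (hv : v.Prime) (hvR : ¬ v ∣ R) (n : ℕ) :
    (n * v).Coprime R ↔ n.Coprime R :=
  ⟨fun h => h.coprime_mul_right, fun h =>
    Nat.Coprime.mul_left h (hv.coprime_iff_not_dvd.2 hvR)⟩

theorem coprime_mul_of_not_dvd (hv : v.Prime) {n : ℕ} (hn : ¬ v ∣ n) (hnR : n.Coprime R) :
    n.Coprime (v * R) :=
  Nat.Coprime.mul_right (hv.coprime_iff_not_dvd.2 hn).symm hnR

variable [NeZero R]

/-- An eigenform with `a_v = ±1` has no companion of level prime to `v`. -/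
theorem false_of_old (hv : v.Prime) (hvR : ¬ v ∣ R) {F : CuspForm (Gamma0 (v * R)) 2}
    (hF : F.IsNormalizedEigenform) {A : CuspForm (Gamma0 R) 2} (hA : A.IsNormalizedEigenform)
    (heq : ∀ ℓ : ℕ, ℓ.Prime → ¬ ℓ ∣ v * R → qCoeff A ℓ = qCoeff F ℓ)
    (hFv : qCoeff F v ^ 2 = 1) : False := by
  have : NeZero (v * R) := ⟨mul_ne_zero hv.ne_zero (NeZero.ne R)⟩
  have : NeZero (R * R) := ⟨mul_ne_zero (NeZero.ne R) (NeZero.ne R)⟩
  have hvRR : ¬ v ∣ R * R := fun h => (hv.dvd_mul.1 h).elim hvR hvR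
  set w := qCoeff F v with hw
  set a := qCoeff A v with ha
  obtain ⟨F', hF', hFa⟩ := exists_depleted (dvd_mul_left R v) F
  obtain ⟨A', hA', hAa⟩ := exists_depleted (dvd_refl R) A
  have hcop : ∀ n, ¬ v ∣ n → n.Coprime R → qCoeff F n = qCoeff A n := fun n hn hnR =>
    qCoeff_eq_of_coprime hF hA (dvd_mul_left R v) heq (coprime_mul_of_not_dvd hv hn hnR)
  have hrel := (Newforms.hOp_eq_smul_iff hv A _).1 (Newforms.hOp_of_isNormalizedEigenform hA hv)
  simp only [HeckeDuality.eulerWeight, if_neg hvR, ← ha] at hrel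
  obtain ⟨E, hE, hEa⟩ := exists_descend (R := R * R) hv
    ((hF'.of_dvd (dvd_of_eq (mul_assoc v R R))).sub (hA'.of_dvd (dvd_mul_left _ v))) (hFa.sub hAa)
    (fun n hn => by
      by_cases hnR : n.Coprime R
      · simp [hcop n hn hnR]
      · simp [hnR])
  have hzero := eq_zero_of_supported hv hvRR (hE.sub (hA'.smul (w - a)))
    (hEa.sub (hAa.smul (w - a))) (fun n hn => by
      by_cases hnR : n.Coprime R
      · have h := hrel n
        rw [if_neg hn, add_zero] at h
        simp only [coprime_mul_iff_of_not_dvd hv hvR,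
          if_pos hnR, qCoeff_mul_prime hF hv (dvd_mul_right v R), ← hw, hcop n hn hnR, h]
        ring
      · simp only [coprime_mul_iff_of_not_dvd hv hvR,
          if_neg hnR, mul_zero, sub_zero])
  have hvR' : v.Coprime R := hv.coprime_iff_not_dvd.2 hvR
  have h := hzero v
  have h2 := hrel v
  rw [if_pos (dvd_refl v), Nat.div_self hv.pos, hA.qCoeff_one, mul_one] at h2
  simp only [if_pos hvR', if_pos (hvR'.mul_left hvR'),
    qCoeff_mul_prime hF hv (dvd_mul_right v R), ← hw, ← ha] at h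
  refine RT.GammaH.qCoeff_ne_mul_succ hv hvR hA (sq_eq_one_iff.1 hFv) ?_
  rw [← ha]
  linear_combination (-w) * h + (-w) * h2 + (w - a) * hFv

/-- The sign at `v` is determined by the good eigenvalues. -/
theorem eq_of_sign (hv : v.Prime) (hvR : ¬ v ∣ R) {F G : CuspForm (Gamma0 (v * R)) 2}
    (hF : F.IsNormalizedEigenform) (hG : G.IsNormalizedEigenform)
    (heq : ∀ ℓ : ℕ, ℓ.Prime → ¬ ℓ ∣ v * R → qCoeff F ℓ = qCoeff G ℓ)
    (hFv : qCoeff F v ^ 2 = 1) (hGv : qCoeff G v ^ 2 = 1) : qCoeff F v = qCoeff G v := by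
  have : NeZero (v * R) := ⟨mul_ne_zero hv.ne_zero (NeZero.ne R)⟩
  have : NeZero (R * R) := ⟨mul_ne_zero (NeZero.ne R) (NeZero.ne R)⟩
  have hvRR : ¬ v ∣ R * R := fun h => (hv.dvd_mul.1 h).elim hvR hvR
  rcases sq_eq_sq_iff_eq_or_eq_neg.1 (hFv.trans hGv.symm) with h | hsign
  · exact h
  exfalso
  set w := qCoeff G v with hw
  obtain ⟨F', hF', hFa⟩ := exists_depleted (dvd_mul_left R v) F
  obtain ⟨G', hG', hGa⟩ := exists_depleted (dvd_mul_left R v) G
  have hcop : ∀ n, ¬ v ∣ n → n.Coprime R → qCoeff F n = qCoeff G n := fun n hn hnR =>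
    qCoeff_eq_of_coprime hF hG dvd_rfl (fun ℓ h1 h2 => (heq ℓ h1 h2).symm)
      (coprime_mul_of_not_dvd hv hn hnR)
  have hFm := qCoeff_mul_prime hF hv (dvd_mul_right v R)
  have hGm := qCoeff_mul_prime hG hv (dvd_mul_right v R)
  obtain ⟨E, hE, hEa⟩ := exists_descend (R := R * R) hv
    ((hF'.sub hG').of_dvd (dvd_of_eq (mul_assoc v R R))) (hFa.sub hGa)
    (fun n hn => by
      by_cases hnR : n.Coprime R
      · simp [hcop n hn hnR]
      · simp [hnR])
  set e : ℕ → ℂ := fun n => if n.Coprime R then -w * (qCoeff F n + qCoeff G n) else 0 with he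
  have hEe : HasCoeff E e := hEa.congr fun n => by
    simp only [he, coprime_mul_iff_of_not_dvd hv hvR]
    split_ifs
    · rw [hFm, hGm, hsign]; ring
    · ring
  let Ec : CuspForm (Gamma0 (R * R)) 2 :=
    Newforms.mkCusp E (fun γ hγ => hE.slash_eq_of_trivial hγ) hE.cusp
  have hEc : ∀ n, qCoeff Ec n = e n := hE.qCoeff_eq (one_dvd _) hEe
  set T := Newforms.hOp (R * R) hv Ec with hT
  have hTc : ∀ n, qCoeff T n = e (n * v) + if v ∣ n then (v : ℂ) * e (n / v) else 0 := fun n => by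
    rw [hT, show Newforms.hOp (R * R) hv Ec = (HeckeDuality.heckeOp (R * R) 2 v hv).1 Ec from rfl,
      HeckeDuality.coeff_heckeOp, HeckeDuality.eulerWeight, if_neg hvRR, hEc, hEc]
  have hzero := eq_zero_of_supported hv hvRR (isNeb_cuspForm T)
    (((isNeb_cuspForm T).hasCoeff (one_dvd _)).congr hTc) (fun n hn => by
      simp only [he, coprime_mul_iff_of_not_dvd hv hvR, if_neg hn, add_zero]
      split_ifs with hnR
      · rw [hFm, hGm, hsign, hcop n hn hnR]; ring
      · rfl)
  have hvR' : v.Coprime R := hv.coprime_iff_not_dvd.2 hvR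
  have h := hzero v
  simp only [he, coprime_mul_iff_of_not_dvd hv hvR, if_pos hvR', if_pos (dvd_refl v),
    Nat.div_self hv.pos, if_pos (Nat.coprime_one_left R), hFm, hGm, hsign, hF.qCoeff_one,
    hG.qCoeff_one] at h
  have hw0 : w * w = 1 := by linear_combination hGv
  have hv1 : ((v : ℂ) + 1) ≠ 0 := by exact_mod_cast Nat.succ_ne_zero v
  have : ((v : ℂ) + 1) = 0 := by linear_combination (-w / 2) * h - (1 + v + (w * w)) * hw0
  exact hv1 this

end Fermat.Agent.Two.Galois
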