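import Fermat.Agent.Two.Galois.Cusp
import Fermat.Agent.Two.Galois.OldPart
import Fermat.Agent.Newforms.Newform
import Fermat.Agent.Newforms.LevelRaiseEigen

/-!
# From an eigen system of a modular form to eigenforms

A form of level `L` with a Hecke eigenvalue other than `ℓ + 1` at some `ℓ ≡ 1` has no constant
term, so its eigen system is that of a cusp eigenform of level `4 L` and of a newform whose level
contains the primes where `U_v` is a sign.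
-/

set_option autoImplicit false

noncomputable section

open CongruenceSubgroup UpperHalfPlane ModularFormClass Matrix.SpecialLinearGroup Filter
open scoped MatrixGroups ModularForm Topology

namespace Fermat.Agent.Two.Galois

open RT.GammaH (IsNeb HasCoeff seqOp nebWeight)

variable {L : ℕ} [NeZero L]

/-- A form on `Γ₀(L)` as a form on `Γ₁(L)`. -/
def toGammaOne (f : ModularForm (Gamma0 L) 2) : ModularForm (Gamma1 L) 2 where
  toFun := f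
  slash_action_eq' := by
    rintro _ ⟨γ, hγ, rfl⟩
    exact SlashInvariantFormClass.slash_action_eq f _ ⟨γ, Gamma1_in_Gamma0 L hγ, rfl⟩
  holo' := f.holo'
  bdd_at_cusps' hc := f.bdd_at_cusps' (by
    rwa [Subgroup.IsArithmetic.isCusp_iff_isCusp_SL2Z] at hc ⊢)

@[simp] theorem coe_toGammaOne (f : ModularForm (Gamma0 L) 2) : ⇑(toGammaOne f) = ⇑f := rfl

/-- The coefficients of a form on `Γ₁(L)`. -/
theorem hasCoeff_gammaOne (f : ModularForm (Gamma1 L) 2) : HasCoeff ⇑f (qCoeff ⇑f) := fun τ => by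
  simpa [smul_eq_mul, qCoeff] using ModularForm.hasSum_qExpansion f one_pos
    DeligneSerre.one_mem_strictPeriods_gamma1 τ

/-- No constant term from an eigenvalue other than `ℓ + 1`. -/
theorem qCoeff_zero_eq_zero (f : ModularForm (Gamma1 L) 2) {ℓ : ℕ} (hℓ : ℓ.Prime)
    (hℓL : (ℓ : ZMod L) = 1) {c : ℂ} (hc : c ≠ ℓ + 1)
    (heig : ∀ n, 0 < n → qCoeff ⇑f (n * ℓ) +
      (if ℓ ∣ n then (ℓ : ℂ) * qCoeff ⇑f (n / ℓ) else 0) = c * qCoeff ⇑f n) :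
    qCoeff ⇑f 0 = 0 := by
  have h1 := DeligneSerre.one_mem_strictPeriods_gamma1 (N := L)
  set a := qCoeff ⇑f
  set k : ℂ := ((ℓ : ℂ) + 1 - c) * a 0 with hk
  have hT : HasCoeff (ModularForm.heckeT 2 ℓ ⇑f) fun n =>
      a (n * ℓ) + if ℓ ∣ n then (ℓ : ℂ) * a (n / ℓ) else 0 := fun τ => by
    refine (P2MW.S_UpperHalfPlane_qCoeff_heckeU.M4cP1W2.hasSum_heckeT hℓ.ne_zero
      (by simpa using SlashInvariantFormClass.periodic_comp_ofComplex f h1)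
      (ModularFormClass.holo f)
      (by simpa [SlashAction.slash_one] using ModularFormClass.bdd_at_infty_slash f (1 : SL(2, ℤ)))
      2 τ).congr_fun fun n => ?_
    simp only [ModularForm.coeffHeckeT_apply, smul_eq_mul, a]
    norm_num
  have hconst : HasCoeff (fun _ : ℍ => k) fun n => if n = 0 then k else 0 := fun τ => by
    have e : (fun n : ℕ => (if n = 0 then k else 0) * Function.Periodic.qParam 1 τ ^ n) =
        fun n => if n = 0 then k else 0 := by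
      funext n; split_ifs with h <;> simp [h]
    rw [e]
    exact hasSum_ite_eq 0 k
  have hg : ModularForm.heckeT 2 ℓ ⇑f - c • ⇑f = fun _ => k := by
    refine ((hT.sub ((hasCoeff_gammaOne f).smul c)).congr fun n => ?_).ext hconst
    rcases Nat.eq_zero_or_pos n with rfl | hn
    · simp [hk]; ring
    · rw [if_neg hn.ne', heig n hn]
      simp [a]
  have hdet : (!![1, 0; (L : ℤ), 1] : Matrix (Fin 2) (Fin 2) ℤ).det = 1 := by
    simp [Matrix.det_fin_two_of]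
  let u : SL(2, ℤ) := ⟨_, hdet⟩
  have hfu : ⇑f ∣[(2 : ℤ)] u = ⇑f :=
    SlashInvariantFormClass.slash_action_eq f _ ⟨u, (Gamma1_mem L u).2 (by simp [u]), rfl⟩
  have hf0 : Tendsto ⇑f atImInfty (𝓝 (a 0)) := by
    obtain ⟨v, hv⟩ := exists_tendsto_slash f 1
    rw [SlashAction.slash_one] at hv
    have he : a 0 = v := by
      show (qExpansion 1 ⇑f).coeff 0 = v
      have hper : Function.Periodic (⇑f ∘ ofComplex) 1 := by
        simpa using SlashInvariantFormClass.periodic_comp_ofComplex f h1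
      rw [UpperHalfPlane.qExpansion_coeff_zero one_pos (analyticAt_cuspFunction_zero one_pos hper
        (ModularFormClass.holo f) (by simpa [SlashAction.slash_one] using
          ModularFormClass.bdd_at_infty_slash f (1 : SL(2, ℤ)))) hper]
      exact hv.limUnder_eq
    rwa [he]
  have hlim := (tendsto_heckeT_slash hℓ hℓL f u (by rwa [hfu])).sub (hf0.const_mul c)
  have hzero : Tendsto ((fun _ : ℍ => k) ∣[(2 : ℤ)] u) atImInfty (𝓝 0) := by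
    have hL : (0 : ℝ) < L := by exact_mod_cast Nat.pos_of_ne_zero (NeZero.ne L)
    refine squeeze_zero_norm (a := fun τ : ℍ => ‖k‖ * (((L : ℝ) * τ.im) ^ 2)⁻¹) (fun τ => ?_) ?_
    · rw [ModularForm.SL_slash_apply, norm_mul, norm_zpow]
      have hd : denom (mapGL ℝ u) τ = (L : ℂ) * τ + 1 := by
        rw [denom, val_mapGL_real]; simp [u]
      erw [hd]
      have hle : (L : ℝ) * τ.im ≤ ‖(L : ℂ) * τ + 1‖ :=
        le_of_eq_of_le (by simp) (Complex.im_le_norm _)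
      have h0 : 0 < (L : ℝ) * τ.im := mul_pos hL τ.im_pos
      refine mul_le_mul_of_nonneg_left ?_ (norm_nonneg k)
      rw [zpow_neg]
      exact inv_anti₀ (by positivity) (by norm_cast; gcongr)
    · rw [← mul_zero ‖k‖]
      refine Tendsto.const_mul _ (tendsto_inv_atTop_zero.comp ?_)
      exact (tendsto_pow_atTop two_ne_zero).comp (tendsto_comap.const_mul_atTop hL)
  have he := tendsto_nhds_unique (hzero.congr fun τ => ?_) hlim
  · exact (mul_eq_zero.1 (show ((ℓ : ℂ) + 1 - c) * a 0 = 0 by linear_combination -he)).resolve_left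
      (sub_ne_zero.2 (Ne.symm hc))
  · rw [← hg, sub_eq_add_neg, SlashAction.add_slash, SlashAction.neg_slash,
      ModularForm.SL_smul_slash, hfu, Pi.add_apply, Pi.neg_apply, Pi.smul_apply, smul_eq_mul,
      sub_eq_add_neg]

variable {N : ℕ} [NeZero N]

/-- An eigenform with `a_v = ±1` at a prime exactly dividing the level is new there. -/
theorem dvd_of_sign {M v : ℕ} (hv : v.Prime) (hvN : v ∣ N) (hv2 : ¬ v ^ 2 ∣ N)
    {F : CuspForm (Gamma0 N) 2} (hF : F.IsNormalizedEigenform) (hFv : qCoeff F v ^ 2 = 1)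
    {g : CuspForm (Gamma0 M) 2} (hg : g.IsNormalizedEigenform) (hMN : M ∣ N)
    (heq : ∀ ℓ : ℕ, ℓ.Prime → ¬ ℓ ∣ N → qCoeff g ℓ = qCoeff F ℓ) : v ∣ M := by
  by_contra hvM
  obtain ⟨R, rfl⟩ := hvN
  have : NeZero R := ⟨fun h => NeZero.ne (v * R) (by rw [h, mul_zero])⟩
  have hvR : ¬ v ∣ R := fun h => hv2 (by rw [pow_two]; exact Nat.mul_dvd_mul_left v h)
  obtain ⟨A, hA, hAg⟩ := Newforms.exists_eigenform_of_dvd
    ((hv.coprime_iff_not_dvd.2 hvM).symm.dvd_of_dvd_mul_left hMN) hg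
  exact false_of_old hv hvR hF hA (fun ℓ hℓ hℓN =>
    (hAg ℓ hℓ (Or.inr fun h => hℓN (h.mul_left v))).trans (heq ℓ hℓ hℓN)) hFv

/-- The sign at a prime exactly dividing the level is determined by the good eigenvalues. -/
theorem sign_unique {v : ℕ} (hv : v.Prime) (hvN : v ∣ N) (hv2 : ¬ v ^ 2 ∣ N)
    {F G : CuspForm (Gamma0 N) 2} (hF : F.IsNormalizedEigenform) (hG : G.IsNormalizedEigenform)
    (heq : ∀ ℓ : ℕ, ℓ.Prime → ¬ ℓ ∣ N → qCoeff F ℓ = qCoeff G ℓ)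
    (hFv : qCoeff F v ^ 2 = 1) (hGv : qCoeff G v ^ 2 = 1) : qCoeff F v = qCoeff G v := by
  obtain ⟨R, rfl⟩ := hvN
  have : NeZero R := ⟨fun h => NeZero.ne (v * R) (by rw [h, mul_zero])⟩
  exact eq_of_sign hv (fun h => hv2 (by rw [pow_two]; exact Nat.mul_dvd_mul_left v h))
    hF hG heq hFv hGv

/-- The eigenform of level `4 N` and the newform of an eigen system. -/
theorem exists_eigenforms (hN : Squarefree N) (hN2 : ¬ 2 ∣ N) {V : Finset ℕ}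
    (hV : ∀ v ∈ V, v.Prime ∧ v ∣ N) (f : ModularForm (Gamma0 N) 2) (lam u : ℕ → ℂ)
    (h1 : qCoeff f 1 ≠ 0)
    (hu : ∀ v ∈ V, u v ^ 2 = 1 ∧ ∀ n : ℕ, 0 < n → qCoeff f (v * n) = u v * qCoeff f n)
    (hlam : ∀ ℓ : ℕ, ℓ.Prime → ¬ ℓ ∣ N → ℓ ≠ 2 → ∀ n : ℕ, 0 < n → qCoeff f (ℓ * n) +
      (if ℓ ∣ n then (ℓ : ℂ) * qCoeff f (n / ℓ) else 0) = lam ℓ * qCoeff f n)
    {ℓ₀ : ℕ} (hℓ₀ : ℓ₀.Prime) (hℓ₀2 : ℓ₀ ≠ 2) (hℓ₀N : (ℓ₀ : ZMod N) = 1)
    (hne : lam ℓ₀ ≠ ℓ₀ + 1) :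
    ∃ h : CuspForm (Gamma0 (4 * N)) 2, h.IsNormalizedEigenform ∧
      (∀ v ∈ V, qCoeff h v = u v) ∧
      (∀ ℓ : ℕ, ℓ.Prime → ¬ ℓ ∣ N → ℓ ≠ 2 → qCoeff h ℓ = lam ℓ) ∧
      ∃ (M : ℕ) (g : CuspForm (Gamma0 M) 2), M ∣ N ∧ g.IsNewform ∧ (∀ v ∈ V, v ∣ M) ∧
        ∀ ℓ : ℕ, ℓ.Prime → ¬ ℓ ∣ N → ℓ ≠ 2 → qCoeff g ℓ = lam ℓ := by
  classical
  have : NeZero (4 * N) := ⟨mul_ne_zero (by norm_num) (NeZero.ne N)⟩
  set F := toGammaOne f
  have hℓ₀N' : ¬ ℓ₀ ∣ N := fun h => by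
    have h0 : (ℓ₀ : ZMod ℓ₀) = 1 := by
      have := congrArg (ZMod.castHom h (ZMod ℓ₀)) hℓ₀N
      rwa [map_natCast, map_one] at this
    have : Fact ℓ₀.Prime := ⟨hℓ₀⟩
    exact zero_ne_one ((ZMod.natCast_self ℓ₀).symm.trans h0)
  have heig : ∀ n, 0 < n → qCoeff ⇑F (n * ℓ₀) +
      (if ℓ₀ ∣ n then (ℓ₀ : ℂ) * qCoeff ⇑F (n / ℓ₀) else 0) = lam ℓ₀ * qCoeff ⇑F n :=
    fun n hn => by rw [mul_comm n]; exact hlam ℓ₀ hℓ₀ hℓ₀N' hℓ₀2 n hn
  have h0 := qCoeff_zero_eq_zero F hℓ₀ hℓ₀N hne heig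
  have hneb : ∀ γ ∈ Gamma0 N, ⇑F ∣[(2 : ℤ)] γ =
      (1 : DirichletCharacter ℂ N) ((γ 1 1 : ℤ) : ZMod N) • ⇑F := fun γ hγ => by
    rw [MulChar.one_apply (DeligneSerre.isUnit_lowerRight hγ), one_smul]
    exact SlashInvariantFormClass.slash_action_eq f _ ⟨γ, hγ, rfl⟩
  have hcusp : IsNeb N (1 : DirichletCharacter ℂ N) ⇑F := by
    refine isNeb_of_eigen F hneb (hasCoeff_gammaOne F) hℓ₀ hℓ₀N (fun n => ?_) hne
    rw [seqOp, nebWeight, hℓ₀N, map_one, one_mul]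
    rcases Nat.eq_zero_or_pos n with rfl | hn
    · simp [h0]
    · exact heig n hn
  let C : CuspForm (Gamma0 N) 2 := Newforms.mkCusp ⇑F
    (fun γ hγ => SlashInvariantFormClass.slash_action_eq f _ ⟨γ, hγ, rfl⟩) hcusp.cusp
  have hC : ∀ n, qCoeff C n = qCoeff f n := fun n => rfl
  have hC0 : qCoeff C 0 = 0 := h0
  obtain ⟨h', hh', hval⟩ := Newforms.exists_eigenform_of_eigen (f := C)
    (fun h => h1 (by rw [← hC, h]; exact (HeckeDuality.coeffLin N 2 1).map_zero))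
    (fun ℓ => (¬ ℓ ∣ N ∧ ℓ ≠ 2) ∨ ℓ ∈ V) (fun ℓ => if ℓ ∈ V then u ℓ else lam ℓ)
    (fun ℓ hℓ hP => by
      rw [Newforms.hOp_eq_smul_iff]
      intro n
      rcases Nat.eq_zero_or_pos n with rfl | hn
      · simp [hC0]
      rw [hC, hC, hC, mul_comm n ℓ, HeckeDuality.eulerWeight]
      by_cases hℓV : ℓ ∈ V
      · rw [if_pos hℓV, if_pos (hV ℓ hℓV).2, (hu ℓ hℓV).2 n hn]
        simp
      · obtain ⟨hℓN, hℓ2⟩ := hP.resolve_right hℓV
        rw [if_neg hℓV, if_neg hℓN, hlam ℓ hℓ hℓN hℓ2 n hn])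
  obtain ⟨h, hh, hhh'⟩ := Newforms.exists_eigenform_of_dvd (dvd_mul_left N 4) hh'
  have hodd : ∀ ℓ : ℕ, ℓ.Prime → ℓ ≠ 2 → ¬ ℓ ∣ 4 * N / N := fun ℓ hℓ hℓ2 hd => by
    rw [Nat.mul_div_cancel _ (Nat.pos_of_ne_zero (NeZero.ne N))] at hd
    exact hℓ2 ((Nat.prime_dvd_prime_iff_eq hℓ Nat.prime_two).1
      (hℓ.dvd_of_dvd_pow (show ℓ ∣ 2 ^ 2 from hd)))
  have hV2 : ∀ v ∈ V, v ≠ 2 := fun v hv h2 => hN2 (h2 ▸ (hV v hv).2)
  have hhV : ∀ v ∈ V, qCoeff h v = u v := fun v hv => by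
    rw [hhh' v (hV v hv).1 (Or.inl (hodd v (hV v hv).1 (hV2 v hv))),
      hval v (hV v hv).1 (Or.inr hv), if_pos hv]
  have hhlam : ∀ ℓ : ℕ, ℓ.Prime → ¬ ℓ ∣ N → ℓ ≠ 2 → qCoeff h ℓ = lam ℓ := fun ℓ hℓ hℓN hℓ2 => by
    rw [hhh' ℓ hℓ (Or.inl (hodd ℓ hℓ hℓ2)), hval ℓ hℓ (Or.inl ⟨hℓN, hℓ2⟩),
      if_neg fun hℓV => hℓN (hV ℓ hℓV).2]
  obtain ⟨M, g, hMN, hg, hgh⟩ := Newforms.exists_newform hh'
  refine ⟨h, hh, hhV, hhlam, M, g, hMN, hg, fun v hv => ?_, fun ℓ hℓ hℓN hℓ2 => ?_⟩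
  · obtain ⟨hvp, hvN⟩ := hV v hv
    refine dvd_of_sign hvp (hvN.mul_left 4) (fun hd => ?_) hh (by rw [hhV v hv, (hu v hv).1]) hg.1
      (hMN.mul_left 4) fun ℓ hℓ hℓ4 => ?_
    · have hcop : (v ^ 2).Coprime 4 :=
        ((Nat.coprime_primes hvp Nat.prime_two).2 (hV2 v hv)).pow 2 2
      have h2 : v ^ 2 ∣ N := hcop.dvd_of_dvd_mul_left hd
      exact hvp.not_isUnit (hN v (by rwa [← pow_two]))
    · have hℓN : ¬ ℓ ∣ N := fun h => hℓ4 (h.mul_left 4)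
      have hℓ2 : ℓ ≠ 2 := fun h => hℓ4 (h ▸ dvd_mul_of_dvd_left (by norm_num) N)
      rw [hgh ℓ hℓ hℓN, hhh' ℓ hℓ (Or.inl (hodd ℓ hℓ hℓ2))]
  · rw [hgh ℓ hℓ hℓN, hval ℓ hℓ (Or.inl ⟨hℓN, hℓ2⟩), if_neg fun hℓV => hℓN (hV ℓ hℓV).2]

end Fermat.Agent.Two.Galois
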