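import Fermat.Agent.RT.Glue.Flat
import Fermat.Agent.RT.Assembly.Normal
import Fermat.Agent.GaloisReps.OfInjective
import Fermat.Agent.FiniteFlat.JTorsion
import Fermat.Agent.EichlerShimura.InjectiveProof

/-!
# Flatness at `p` of the representations of eigen-lattices, `p = 2` included

At a level prime to `p` the torsion of the model carries Galois orders. Hence the representation
on an eigen-lattice of the model, and its matrices in any basis, are flat at `p`.
-/

set_option autoImplicit false

noncomputable section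

open IsLocalRing Module
open scoped MonoidAlgebra

namespace Fermat.Agent.Two.Galois

open GaloisReps (AbsGal FullHecke HeckeGaloisModel galAlg galLevel ModelLevel repAlg)
open FiniteFlat (GalOrder)
open RT.Glue (eigenAlg latticeAlg galAlg_eq coe_eigenAlg)
open Deform (toRep)

variable {p : ℕ} [Fact p.Prime] {N : ℕ} [NeZero N]

/-- At a level prime to `p` the levels of the model of the Jacobian carry Galois orders. -/
theorem nonempty_galOrder_model (hN : ¬ p ∣ N) (hES : GaloisReps.CongruenceProperty N p) (k : ℕ) :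
    Nonempty (GalOrder p (ModelLevel (GaloisReps.modelOfCongruence hES) k)) := by
  have hp : p.Prime := Fact.out
  obtain ⟨A, hA⟩ := Arith.exists_liesOverPrime hp
  obtain ⟨O, -⟩ := FiniteFlat.exists_galOrder_jTor (N := N) (k := k) hA hp hN
  exact GaloisReps.nonempty_galOrder_modelLevel
    (GaloisReps.torsionIso N p (GaloisReps.conjProperty N)) (GaloisReps.torsionGalois N p hES) k
    (X := FiniteFlat.JTor N p k)
    { toFun := fun x => x, map_zero' := rfl, map_add' := fun _ _ => rfl }
    (fun x y h => h) (fun σ x => rfl) O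

section Transfer

variable {A : Type} [CommRing A] [IsLocalRing A]

/-- A representation in which the relations of the model hold to high order is flat at `p` when
the levels of the model carry Galois orders. -/
theorem isFlatAt_of_transfer (ρ : GaloisRepAdic A) (hres : Finite (ResidueField A))
    (D : HeckeGaloisModel N p) (hX : ∀ k, Nonempty (GalOrder p (ModelLevel D k)))
    (htrans : ∀ n, ∃ k, ∀ y : ℤ[AbsGal], galAlg D k y = 0 → ∀ v : ρ.V,
      repAlg ρ y v ∈ maximalIdeal A ^ n • (⊤ : Submodule A ρ.V)) :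
    ρ.IsFlatAt p := by
  classical
  refine EC.Rep.isFlatAt_of_galOrder ρ p hres fun I hI => ?_
  obtain ⟨n, hn⟩ := IsLocalRing.exists_maximalIdeal_pow_le_of_isArtinianRing_quotient I
  obtain ⟨k, hk⟩ := htrans n
  obtain ⟨OX⟩ := hX k
  set W := ρ.V ⧸ (I • (⊤ : Submodule A ρ.V))
  have : Finite W := Module.finite_of_finite (A ⧸ I)
  have := Fintype.ofFinite W
  obtain ⟨OP⟩ := GaloisReps.nonempty_galOrder_pi OX (W × Fin D.d)
  let q : ρ.V →ₗ[A] W := (I • (⊤ : Submodule A ρ.V)).mkQ
  choose lift hlift using Submodule.mkQ_surjective (I • (⊤ : Submodule A ρ.V))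
  let F₁ : (W → ℤ[AbsGal]) →+ (W × Fin D.d → ModelLevel D k) :=
    { toFun := fun x wj => ((fun i => galAlg D k (x wj.1) i wj.2) :)
      map_zero' := by funext wj i; simp; rfl
      map_add' := fun x y => by funext wj i; simp; rfl }
  let F₂ : (W → ℤ[AbsGal]) →+ W :=
    { toFun := fun x => q (∑ w, repAlg ρ (x w) (lift w))
      map_zero' := by simp
      map_add' := fun x y => by simp [Finset.sum_add_distrib] }
  have hker : F₁.ker ≤ F₂.ker := by
    intro x hx
    rw [AddMonoidHom.mem_ker] at hx ⊢
    refine (Submodule.Quotient.mk_eq_zero _).mpr (Submodule.sum_mem _ fun w _ =>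
      Submodule.smul_mono hn le_rfl (hk (x w) ?_ _))
    ext i j
    exact congrFun (congrFun hx (w, j)) i
  let L' : AbsGal → (W → ℤ[AbsGal]) → (W → ℤ[AbsGal]) :=
    fun σ x w => MonoidAlgebra.single σ 1 * x w
  have hL₁ : ∀ σ x, F₁ (L' σ x) = σ • F₁ x := by
    intro σ x
    funext wj
    show (fun i => galAlg D k (MonoidAlgebra.single σ 1 * x wj.1) i wj.2) =
      (galLevel D k σ).mulVec (fun i => galAlg D k (x wj.1) i wj.2)
    rw [map_mul, GaloisReps.galAlg_single, one_smul]
    funext i
    rw [Matrix.mul_apply]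
    rfl
  have hL₂ : ∀ σ x, F₂ (L' σ x) = ρ.levelAction I σ (F₂ x) := by
    intro σ x
    show q (∑ w, repAlg ρ (MonoidAlgebra.single σ 1 * x w) (lift w)) =
      ρ.levelAction I σ (q (∑ w, repAlg ρ (x w) (lift w)))
    simp only [map_mul, GaloisReps.repAlg_single, one_smul, Module.End.mul_apply, ← map_sum]
    rfl
  have hstable : ∀ (σ : AbsGal) (z : F₁.range),
      σ • (z : W × Fin D.d → ModelLevel D k) ∈ F₁.range := by
    rintro σ ⟨_, x, rfl⟩
    exact ⟨L' σ x, hL₁ σ x⟩
  let : DistribMulAction AbsGal F₁.range :=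
    { smul := fun σ z => ⟨σ • (z : W × Fin D.d → ModelLevel D k), hstable σ z⟩
      one_smul := fun z => Subtype.ext (one_smul AbsGal (z : W × Fin D.d → ModelLevel D k))
      mul_smul := fun σ τ z => Subtype.ext (mul_smul σ τ (z : W × Fin D.d → ModelLevel D k))
      smul_zero := fun σ => Subtype.ext (smul_zero σ)
      smul_add := fun σ z z' => Subtype.ext
        (smul_add σ (z : W × Fin D.d → ModelLevel D k) (z' : W × Fin D.d → ModelLevel D k)) }
  let e := QuotientAddGroup.quotientKerEquivRange F₁
  let π : F₁.range →+ W := (QuotientAddGroup.lift F₁.ker F₂ hker).comp e.symm.toAddMonoidHom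
  have hπ : ∀ x, π ⟨F₁ x, x, rfl⟩ = F₂ x := fun x => by
    have : e.symm ⟨F₁ x, x, rfl⟩ = QuotientAddGroup.mk x := e.injective (by
      rw [AddEquiv.apply_symm_apply]; exact Subtype.ext rfl)
    show QuotientAddGroup.lift F₁.ker F₂ hker (e.symm ⟨F₁ x, x, rfl⟩) = _
    rw [this]
    rfl
  refine ⟨F₁.range, inferInstance, inferInstance, inferInstance,
    OP.restrict F₁.range.subtype Subtype.val_injective (fun σ z => rfl), π, fun w => ?_, ?_⟩
  · refine ⟨⟨F₁ (Pi.single w 1), _, rfl⟩, (hπ _).trans ?_⟩
    show q (∑ w', repAlg ρ ((Pi.single w 1 : W → ℤ[AbsGal]) w') (lift w')) = w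
    rw [Finset.sum_eq_single w (fun w' _ h => by simp [Pi.single_eq_of_ne h])
      (fun h => absurd (Finset.mem_univ w) h), Pi.single_eq_same, map_one, Module.End.one_apply]
    exact hlift w
  · rintro σ ⟨_, x, rfl⟩
    refine Eq.trans ?_ ((hL₂ σ x).trans (congrArg _ (hπ x).symm))
    rw [← hπ]
    exact congrArg π (Subtype.ext (hL₁ σ x).symm)

end Transfer

section Lattice

variable {O : Type} [CommRing O] [IsDomain O] [IsDiscreteValuationRing O] [CharZero O]
  (D : HeckeGaloisModel N p) (ι : ℤ_[p] →+* O) (θ : FullHecke N →+* O)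

/-- A relation modulo `p ^ k` on the model holds modulo `p ^ k` on the eigen-lattice. -/
theorem eigenAlg_mem_smul {k : ℕ} {y : ℤ[AbsGal]} (hy : galAlg D k y = 0)
    (v : GaloisReps.eigenspace D.hecke θ) :
    eigenAlg D ι θ y v ∈ Ideal.span {(p : O) ^ k} •
      (⊤ : Submodule O (GaloisReps.eigenspace D.hecke θ)) := by
  rw [galAlg_eq] at hy
  have hmem : ∀ i j, latticeAlg D y i j ∈ Ideal.span {(p : ℤ_[p]) ^ k} := fun i j => by
    rw [← PadicInt.ker_toZModPow, RingHom.mem_ker]
    exact congrFun (congrFun hy i) j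
  choose Z hZ using fun i j => Ideal.mem_span_singleton'.mp (hmem i j)
  have hp : (p : O) ^ k ≠ 0 :=
    pow_ne_zero _ (Nat.cast_ne_zero.2 (Fact.out : p.Prime).ne_zero)
  have hL : ι.mapMatrix (latticeAlg D y) = (p : O) ^ k • (Matrix.of Z).map ι := by
    ext i j
    simp [← hZ i j, mul_comm]
  have hval : (eigenAlg D ι θ y v : Fin D.d → O) =
      (p : O) ^ k • ((Matrix.of Z).map ι).mulVec (v : Fin D.d → O) := by
    rw [coe_eigenAlg, hL, Matrix.smul_mulVec]
  have hmem' := (GaloisReps.mem_eigenspace D.hecke θ _).1 (eigenAlg D ι θ y v).2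
  have he : eigenAlg D ι θ y v = (p : O) ^ k • (⟨((Matrix.of Z).map ι).mulVec (v : Fin D.d → O),
      (GaloisReps.mem_eigenspace D.hecke θ _).2 fun a => by
        have h := hmem' a
        rw [hval, Matrix.mulVec_smul, smul_comm] at h
        exact smul_right_injective _ hp h⟩ : GaloisReps.eigenspace D.hecke θ) := Subtype.ext hval
  rw [he]
  exact Submodule.smul_mem_smul (Ideal.mem_span_singleton_self _) Submodule.mem_top

variable [Finite (ResidueField O)] (hpO : (p : O) ∈ maximalIdeal O)
  (hX : ∀ k, Nonempty (GalOrder p (ModelLevel D k)))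

omit [Finite (ResidueField O)] [CharZero O] [Fact p.Prime] in
include hpO in
theorem span_pow_le (k : ℕ) : Ideal.span {(p : O) ^ k} ≤ maximalIdeal O ^ k :=
  (Ideal.span_singleton_le_iff_mem _).2 (Ideal.pow_mem_pow hpO k)

include hX in
/-- The representation on an eigen-lattice is flat at `p`. -/
theorem isFlatAt_rep : (D.rep ι θ hpO).IsFlatAt p :=
  isFlatAt_of_transfer _ inferInstance D hX fun n => ⟨n, fun _ hy v =>
    Submodule.smul_mono_left (span_pow_le hpO n) (eigenAlg_mem_smul D ι θ hy v)⟩

end Lattice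

section Change

variable {R : Type} [CommRing R] [IsLocalRing R]

omit [Fact p.Prime] in
/-- Flatness of the matrices of a representation in any basis. -/
theorem isFlatAt_toRep_matOf {ρ : GaloisRepAdic R} (b : Basis (Fin 2) R ρ.V)
    (h : ρ.IsFlatAt p) : (toRep (Deform.matOf ρ b) (Deform.isCont_matOf ρ b)).IsFlatAt p :=
  RT.Assembly.isFlatAt_of_isEquiv (Deform.isEquiv_toRep_matOf ρ b) h

end Change

section AtTwo

local instance : Fact (Nat.Prime 2) := ⟨Nat.prime_two⟩

variable {M : ℕ} [NeZero M] (hM : ¬ 2 ∣ M) {O : Type} [CommRing O] [IsDomain O]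
  [IsDiscreteValuationRing O] [Finite (ResidueField O)] [CharZero O]
  (hp : ((2 : ℕ) : O) ∈ maximalIdeal O) (ι : ℤ_[2] →+* O) (θ : FullHecke M →+* O)

include hM in
/-- The representation on an eigen-lattice of odd level is flat at `2`. -/
theorem isFlatAt_rep_two :
    ((GaloisReps.modelOfCongruence
      (GaloisReps.congruenceProperty_all EichlerShimura.injectiveOnTorsion_all M 2)).rep
        ι θ hp).IsFlatAt 2 :=
  isFlatAt_rep _ ι θ hp (nonempty_galOrder_model hM _)

include hM in
/-- The matrices of the representation on an eigen-lattice of odd level are flat at `2`. -/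
theorem isFlatAt_matOf_rep_two (b : Basis (Fin 2) O
    ((GaloisReps.modelOfCongruence
      (GaloisReps.congruenceProperty_all EichlerShimura.injectiveOnTorsion_all M 2)).rep
        ι θ hp).V) :
    (toRep (Deform.matOf _ b) (Deform.isCont_matOf _ b)).IsFlatAt 2 :=
  isFlatAt_toRep_matOf b (isFlatAt_rep_two hM hp ι θ)

end AtTwo

end Fermat.Agent.Two.Galois
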