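import Fermat.Agent.RT.InertiaTW.Inertia
import Fermat.Agent.NewformLocal.Assembly

/-!
# The local relations at a Steinberg prime

If inertia at `v` acts unipotently then a Frobenius element conjugates it into its `v`-th power,
and for a two-dimensional action with Frobenius eigenvalues `z` and `z v` the two linear relations
of the flag follow.
-/

set_option autoImplicit false
set_option linter.unusedSectionVars false

noncomputable section

namespace Fermat.Agent.Two.Galois

open Fermat.Agent.Arith Fermat.Agent.RT.Assembly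
open Fermat.Agent.RT.InertiaTW (exists_pow_prime_pow_eq_one)

/-- **The relations of the flag** for Frobenius `X` and an inertia element `Y`. -/
theorem steinberg_relations {K : Type} [Field K] [CharZero K] {X Y : Matrix (Fin 2) (Fin 2) K}
    {v : ℕ} (hv : 1 < v) {z : K} (hz : z ^ 2 = 1) (htr : X.trace = z * (1 + v))
    (hdet : X.det = v) (hY : (Y - 1) ^ 2 = 0) (hconj : X * Y = Y ^ v * X) :
    (X - ((v : K) * z) • 1) * (Y - 1) = 0 ∧ (Y - 1) * (X - z • 1) = 0 := by
  obtain ⟨N, rfl⟩ : ∃ N, Y = 1 + N := ⟨Y - 1, (add_sub_cancel _ _).symm⟩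
  rw [add_sub_cancel_left] at hY ⊢
  have hpow : ∀ m : ℕ, (1 + N) ^ m = 1 + (m : K) • N := by
    intro m
    induction m with
    | zero => simp
    | succ m ih =>
      rw [pow_succ, ih, add_mul, one_mul, smul_mul_assoc, mul_add, mul_one, ← sq, hY, add_zero,
        Nat.cast_succ, add_smul, one_smul]
      abel
  rw [hpow, mul_add, mul_one, add_mul, one_mul, add_right_inj, smul_mul_assoc] at hconj
  have hCH : X * X = (z * (1 + v)) • X - (v : K) • 1 := by
    rw [← htr, ← hdet, Matrix.trace_fin_two, Matrix.det_fin_two]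
    ext i j
    fin_cases i <;> fin_cases j <;> simp [Matrix.mul_apply, Fin.sum_univ_two] <;> ring
  have h2 : X * X * N = ((v : K) ^ 2) • (N * (X * X)) := by
    rw [mul_assoc, hconj, mul_smul_comm, ← mul_assoc, hconj, smul_mul_assoc, smul_smul, sq,
      mul_assoc N]
  rw [hCH, sub_mul, smul_mul_assoc, smul_mul_assoc, one_mul, mul_sub, mul_smul_comm,
    mul_smul_comm, mul_one] at h2
  have hv0 : (v : K) ≠ 0 := Nat.cast_ne_zero.mpr (by omega)
  have hv1 : 1 - (v : K) ≠ 0 := sub_ne_zero.mpr fun h => by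
    have : v = 1 := by exact_mod_cast h.symm
    omega
  have hv2 : 1 + (v : K) ≠ 0 := by exact_mod_cast (show 1 + v ≠ 0 by omega)
  have hNX : X * N = ((v : K) * z) • N := by
    have h3 : (((1 - v : K) * (z * (1 + v))) • (X * N)) =
        ((1 - v : K) * ((v : K) * (1 + v))) • N := by
      have h5 : (z * (1 + v)) • (X * N) = (v : K) • ((z * (1 + v)) • (X * N)) -
          ((v : K) ^ 2 * v - v) • N := by
        rw [hconj] at h2 ⊢
        linear_combination (norm := module) h2
      linear_combination (norm := module) h5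
    have h4 : ((1 - v : K) * (1 + v)) • (z • (X * N)) = ((1 - v : K) * (1 + v)) • ((v : K) • N) := by
      linear_combination (norm := module) h3
    have h5 := congrArg (z • ·) (smul_right_injective _ (mul_ne_zero hv1 hv2) h4)
    simp only [smul_smul, ← sq, hz, one_smul] at h5
    rw [h5, mul_comm]
  refine ⟨by rw [sub_mul, hNX, smul_mul_assoc, one_mul, sub_self], ?_⟩
  rw [mul_sub, mul_smul_comm, mul_one, sub_eq_zero]
  refine smul_right_injective _ hv0 ?_
  show (v : K) • (N * X) = (v : K) • z • N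
  rw [← hconj, hNX, smul_smul]

variable {M p : ℕ} [NeZero M] [Fact p.Prime] (D : GaloisReps.HeckeGaloisModel M p) {v : ℕ}
  (hv : v.Prime) (hvp : v ≠ p) (hU : NewformLocal.UnipotentAt D v)
  {A : ValuationSubring QBar} (hA : A.LiesOverPrime v)

include hv hvp hU hA

/-- Unipotent inertia is tame. -/
theorem gal_eq_one_of_tameTrivial {ν : GQ} (hν : ν ∈ A.inertiaSubgroupIn ℚ)
    (htriv : TameTrivial A ν) : D.gal ν = 1 := by
  ext i j
  refine PadicInt.ext_of_toZModPow.1 fun n => ?_
  have hB : ((p : Matrix (Fin D.d) (Fin D.d) (ZMod (p ^ n)))) ^ n = 0 := by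
    rw [← map_natCast (Matrix.scalar (Fin D.d) : ZMod (p ^ n) →+* _), ← map_pow, ← Nat.cast_pow,
      ZMod.natCast_self, map_zero]
  have hY : (((PadicInt.toZModPow (p := p) n).mapMatrix (D.gal ν)) - 1) ^ 2 = 0 := by
    rw [← map_one (PadicInt.toZModPow (p := p) n).mapMatrix, ← map_sub, ← map_pow, hU A hA ν hν,
      map_zero]
  obtain ⟨k, hk⟩ := exists_pow_prime_pow_eq_one hB hY
  obtain ⟨L, hL, hL'⟩ := D.gal_continuous n
  have h := eq_one_of_tameTrivial ((PadicInt.toZModPow (p := p) n).mapMatrix.toMonoidHom.comp D.gal)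
    ⟨L, hL, fun σ hσ => hL' σ hσ⟩ hA hv hν htriv (n := p ^ k)
    (fun hd => hvp ((Nat.prime_dvd_prime_iff_eq hv Fact.out).1 (hv.dvd_of_dvd_pow hd))) hk
  have h1 := congrFun (congrFun h i) j
  simpa [Matrix.one_apply, apply_ite (PadicInt.toZModPow (p := p) n)] using h1

/-- **A Frobenius element conjugates unipotent inertia into its `v`-th power.** -/
theorem gal_conj_frobenius {φ : GQ} (hφ : A.IsFrobeniusAt φ v) {σ : GQ}
    (hσ : σ ∈ A.inertiaSubgroupIn ℚ) : D.gal (φ * σ * φ⁻¹) = D.gal σ ^ v := by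
  obtain ⟨h1, h2⟩ := tameTrivial_frobenius_conj hφ hσ
  conv_lhs => rw [show φ * σ * φ⁻¹ = φ * σ * φ⁻¹ * (σ ^ v)⁻¹ * σ ^ v by group]
  rw [map_mul, gal_eq_one_of_tameTrivial D hv hvp hU hA h1 h2, one_mul, map_pow]

end Fermat.Agent.Two.Galois

end
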