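import Fermat.Agent.Two.Galois.PointLocal
import Fermat.Agent.Deform.Residual
import Fermat.Agent.RT.Assembly.Models
import Fermat.Prelude.Def_GaloisRep_LocalConditions
import Fermat.Agent.Two.Galois.Steinberg

/-!
# The local conditions on the lattice representation of a newform

At a prime exactly dividing the level inertia is unipotent and a Frobenius element satisfies the
relations of a flag with one sign for every place; the determinant is cyclotomic and the
representation is unramified away from the level and the residue characteristic.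
-/

set_option autoImplicit false
set_option linter.unusedSectionVars false

noncomputable section

namespace Fermat.Agent.Two.Galois

open IsLocalRing Module Polynomial CongruenceSubgroup
open Fermat.Agent.Arith Fermat.Agent.Deform
open GaloisReps (AbsGal HeckeGaloisModel FullHecke)
open NewformLocal (UnipotentAt)
open NewformLocal.Toric (QuarticAt)

variable {M p : ℕ} [NeZero M] [Fact p.Prime]
  {O : Type} [CommRing O] [IsDomain O] [IsDiscreteValuationRing O] [CharZero O]
  {ι : ℤ_[p] →+* O} {θ : FullHecke M →+* O} {hp : (p : O) ∈ maximalIdeal O}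

section Model

variable (D : HeckeGaloisModel M p) (b : Basis (Fin 2) O (D.rep ι θ hp).V)

theorem matOf_eq_one_of_gal {σ : AbsGal} (h : D.gal σ = 1) :
    matOf (D.rep ι θ hp) b σ = 1 := by
  have h1 : D.eigenAction ι θ σ = 1 := by
    refine LinearMap.ext fun v => Subtype.ext ?_
    rw [GaloisReps.HeckeGaloisModel.coe_eigenAction, h,
      Matrix.map_one ι (map_zero ι) (map_one ι), Matrix.one_mulVec, Module.End.one_apply]
  show LinearMap.toMatrixAlgEquiv b (D.eigenAction ι θ σ) = 1
  rw [h1]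
  exact map_one _

theorem matOf_eq_one {q : ℕ} (hq : q.Prime) (hqM : ¬ q ∣ M) (hqp : q ≠ p)
    {A : ValuationSubring (AlgebraicClosure ℚ)} (hA : A.LiesOverPrime q) {σ : AbsGal}
    (hσ : σ ∈ A.inertiaSubgroupIn ℚ) : matOf (D.rep ι θ hp) b σ = 1 :=
  matOf_eq_one_of_gal D b (D.gal_unramified q hq (fun h => (hq.dvd_mul.1 h).elim hqM fun h' =>
    hqp ((Nat.prime_dvd_prime_iff_eq hq Fact.out).1 h')) A hA σ hσ)

theorem sub_one_mul_sub_one_matOf {σ : AbsGal} (h : (D.gal σ - 1) ^ 2 = 0) :
    (matOf (D.rep ι θ hp) b σ - 1) * (matOf (D.rep ι θ hp) b σ - 1) = 0 := by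
  have hsq : (D.eigenAction ι θ σ - 1) * (D.eigenAction ι θ σ - 1) = 0 := by
    refine LinearMap.ext fun w => Subtype.ext ?_
    have h1 := congrArg ι.mapMatrix h
    rw [pow_two, map_mul, map_sub, map_one, map_zero, RingHom.mapMatrix_apply] at h1
    have h2 := congrArg (fun m : Matrix (Fin D.d) (Fin D.d) O => m.mulVec w.1) h1
    simp only [Matrix.zero_mulVec, ← Matrix.mulVec_mulVec, Matrix.sub_mulVec,
      Matrix.one_mulVec, Matrix.mulVec_sub] at h2
    simp only [Module.End.mul_apply, LinearMap.sub_apply, Module.End.one_apply,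
      AddSubgroupClass.coe_sub, GaloisReps.HeckeGaloisModel.coe_eigenAction,
      LinearMap.zero_apply, ZeroMemClass.coe_zero, Matrix.mulVec_sub] at h2 ⊢
    exact h2
  let f : Module.End O (GaloisReps.eigenspace D.hecke θ) →+* M2 O :=
    (LinearMap.toMatrixAlgEquiv b).toAlgHom.toRingHom
  show (f (D.eigenAction ι θ σ) - 1) * (f (D.eigenAction ι θ σ) - 1) = 0
  rw [← map_one f, ← map_sub, ← map_mul, hsq, map_zero]

theorem detIsCyclotomic_matOf :
    (toRep (matOf (D.rep ι θ hp) b) (isCont_matOf _ b)).DetIsCyclotomic p := by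
  refine ⟨hp, fun n σ a ha => ?_⟩
  have e : LinearMap.det ((toRep (matOf (D.rep ι θ hp) b) (isCont_matOf _ b)).ρ σ) =
      LinearMap.det (D.eigenAction ι θ σ) := by
    show LinearMap.det (Matrix.toLinAlgEquiv' (LinearMap.toMatrixAlgEquiv b
      (D.eigenAction ι θ σ))) = _
    exact (LinearMap.det_toLin' _).trans (LinearMap.det_toMatrix b _)
  rw [e, Nat.cast_pow, Ideal.mem_span_singleton]
  exact D.det_eigenAction_congr ι θ hp ha

theorem trace_matOf (σ : AbsGal) : (matOf (D.rep ι θ hp) b σ).trace =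
    LinearMap.trace O _ (D.eigenAction ι θ σ) :=
  (LinearMap.trace_eq_matrix_trace O b (D.eigenAction ι θ σ)).symm

theorem det_matOf (σ : AbsGal) : (matOf (D.rep ι θ hp) b σ).det =
    LinearMap.det (D.eigenAction ι θ σ) :=
  LinearMap.det_toMatrix b _

/-- **The flag at a prime exactly dividing the level of a newform**, for a model. -/
theorem exists_special_of_model {v : ℕ} (hv : v.Prime) (hvp : v ≠ p) (hvM : v ∣ M)
    (hU : UnipotentAt D v) (hT : QuarticAt D v) {g : CuspForm (Gamma0 M) 2} (hg : g.IsNewform)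
    {jC : O →+* ℂ} (hjθ : jC.comp θ = ConductorLevel.eigenChar hg.1 ∅) :
    ∃ z : O, z ^ 2 = 1 ∧ ∀ A : ValuationSubring (AlgebraicClosure ℚ), A.LiesOverPrime v →
      ∀ φ, A.IsFrobeniusAt φ v →
        (matOf (D.rep ι θ hp) b φ).trace = z * ((v : O) + 1) ∧
        ∀ σ ∈ A.inertiaSubgroupIn ℚ,
          (matOf (D.rep ι θ hp) b φ - (z * (v : O)) • 1) * (matOf (D.rep ι θ hp) b σ - 1) = 0 ∧
            (matOf (D.rep ι θ hp) b σ - 1) * (matOf (D.rep ι θ hp) b φ - z • 1) = 0 := by
  set r := matOf (D.rep ι θ hp) b with hr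
  let K := FractionRing O
  let f : M2 O →+* M2 K := (algebraMap O K).mapMatrix
  have : CharZero K := charZero_of_injective_algebraMap (IsFractionRing.injective O K)
  have hf : Function.Injective f := fun X Y h => Matrix.ext fun i j =>
    IsFractionRing.injective O K (congrFun (congrFun h i) j)
  -- the traces of Frobenius elements
  have hR : M / v ∣ M := Nat.div_dvd_of_dvd hvM
  have hRq : M / v * v = M := Nat.div_mul_cancel hvM
  have : NeZero (M / v) := ⟨fun h => NeZero.ne M (by rw [← hRq, h, zero_mul])⟩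
  obtain ⟨t, ht, htg⟩ := NewformLocal.exists_killsOld_ne_zero hg hR
    (Nat.div_lt_self (Nat.pos_of_ne_zero (NeZero.ne M)) hv.one_lt).ne
  have hθt : θ (GaloisReps.toFull _ t) ≠ 0 := fun h0 => by
    have h2 := RingHom.congr_fun hjθ (GaloisReps.toFull _ t)
    rw [RingHom.comp_apply, h0, map_zero, NewformLocal.eigenChar_toFull, eq_comm] at h2
    exact htg h2
  obtain ⟨A₀, hA₀⟩ := exists_liesOverPrime hv
  obtain ⟨φ₀, hφ₀⟩ := exists_isFrobeniusAt hA₀ hv
  obtain ⟨z, hz, hz0⟩ : ∃ z : O, z ^ 2 = 1 ∧ (r φ₀).trace = z * ((v : O) + 1) := by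
    have key := NewformLocal.Toric.charpoly_frobenius_bad D ι θ hp hv hvp hR hRq hT t ht hθt hA₀ hφ₀
    have htr : (r φ₀).trace = (v : O) + 1 ∨ (r φ₀).trace = -((v : O) + 1) := by
      rw [trace_matOf, LinearMap.trace_eq_matrix_trace O (D.eigenBasis θ),
        Matrix.trace_eq_neg_charpoly_coeff, LinearMap.charpoly_toMatrix]
      rcases key with h | h
      · exact Or.inl (by rw [h]; simp [Fintype.card_fin])
      · exact Or.inr (by rw [h]; simp [Fintype.card_fin])
    rcases htr with h | h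
    · exact ⟨1, one_pow 2, by rw [h]; ring⟩
    · exact ⟨-1, by ring, by rw [h]; ring⟩
  refine ⟨z, hz, fun A hA φ hφ => ?_⟩
  -- over the fraction field
  have hin : ∀ σ ∈ A.inertiaSubgroupIn ℚ, (f (r σ) - 1) ^ 2 = 0 := fun σ hσ => by
    rw [← map_one f, ← map_sub, sq, ← map_mul, sub_one_mul_sub_one_matOf D b (hU A hA σ hσ),
      map_zero]
  have hconj : ∀ {ψ : AbsGal}, A.IsFrobeniusAt ψ v → ∀ σ ∈ A.inertiaSubgroupIn ℚ,
      f (r ψ) * f (r σ) = f (r σ) ^ v * f (r ψ) := fun {ψ} hψ σ hσ => by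
    have h1 : D.gal (ψ * σ * ψ⁻¹ * (σ ^ v)⁻¹) = 1 := by
      rw [map_mul, gal_conj_frobenius D hv hvp hU hA hψ hσ, ← map_pow, ← map_mul,
        mul_inv_cancel, map_one]
    rw [← map_mul f, ← map_pow f, ← map_mul f]
    refine congrArg f ?_
    rw [← map_mul, ← map_pow, ← map_mul,
      show ψ * σ = ψ * σ * ψ⁻¹ * (σ ^ v)⁻¹ * (σ ^ v * ψ) by group, map_mul,
      hr, matOf_eq_one_of_gal D b h1, one_mul]
  have htr : (r φ).trace = z * ((v : O) + 1) := by
    obtain ⟨g', rfl⟩ := exists_smul_eq hA₀ hA hv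
    have hφ' := isFrobeniusAt_conj (g := g') hφ₀
    have hτ := inv_mul_mem_inertia hφ hφ'
    refine IsFractionRing.injective O K ?_
    rw [AddMonoidHom.map_trace (algebraMap O K), ← hz0, AddMonoidHom.map_trace (algebraMap O K)]
    show (f (r φ)).trace = (f (r φ₀)).trace
    rw [show φ = g' * φ₀ * g'⁻¹ * ((g' * φ₀ * g'⁻¹)⁻¹ * φ) by group, map_mul, map_mul f,
      trace_mul_of_conj hv.one_lt (hin _ hτ) (hconj hφ' _ hτ), map_mul, map_mul, map_mul, map_mul,
      Matrix.trace_mul_comm, ← mul_assoc, ← map_mul f, ← map_mul r, inv_mul_cancel, map_one,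
      map_one, one_mul]
  refine ⟨htr, fun σ hσ => ?_⟩
  have hdet : (f (r φ)).det = (v : K) := by
    rw [← RingHom.map_det, hr, det_matOf, D.det_eigenAction_of_roots ι θ hp fun n ζ hζ =>
      GaloisReps.frobenius_apply_root hA hv hφ hζ fun h =>
        hvp ((Nat.prime_dvd_prime_iff_eq hv Fact.out).1 (hv.dvd_of_dvd_pow h)), map_natCast]
  have htrK : (f (r φ)).trace = algebraMap O K z * (1 + v) := by
    show ((r φ).map (algebraMap O K)).trace = _
    rw [← AddMonoidHom.map_trace (algebraMap O K), htr, map_mul, map_add, map_one, map_natCast,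
      add_comm]
  obtain ⟨h1, h2⟩ := steinberg_relations hv.one_lt (by rw [← map_pow, hz, map_one]) htrK hdet
    (hin σ hσ) (hconj hφ σ hσ)
  have hs : ∀ c : O, f (c • (1 : M2 O)) = algebraMap O K c • 1 := fun c => by
    ext i j
    simp [f, Matrix.one_apply, apply_ite (algebraMap O K)]
  exact ⟨hf (by rw [map_mul, map_sub, map_sub, map_one, map_zero, hs, map_mul, map_natCast,
      mul_comm (algebraMap O K z), h1]),
    hf (by rw [map_mul, map_sub, map_sub, map_one, map_zero, hs, h2])⟩

end Model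

variable (hES : GaloisReps.CongruenceProperty M p)
  (b : Basis (Fin 2) O ((GaloisReps.modelOfCongruence hES).rep ι θ hp).V)

/-- Inertia at a prime exactly dividing the level is unipotent. -/
theorem sub_one_sq_matOf {q : ℕ} (hq : q.Prime) (hqp : q ≠ p) (hqM : q ∣ M) (hq2 : ¬ q ^ 2 ∣ M)
    {A : ValuationSubring (AlgebraicClosure ℚ)} (hA : A.LiesOverPrime q) {σ : AbsGal}
    (hσ : σ ∈ A.inertiaSubgroupIn ℚ) :
    (matOf ((GaloisReps.modelOfCongruence hES).rep ι θ hp) b σ - 1) *
      (matOf ((GaloisReps.modelOfCongruence hES).rep ι θ hp) b σ - 1) = 0 :=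
  sub_one_mul_sub_one_matOf _ b (GaloisReps.unipotentAt_modelOfCongruence hES hq hqp
    (Semistable.torsionUnipotentAt hq hqM hq2) A hA σ hσ)

/-- **The flag at a prime exactly dividing the level of a newform.** -/
theorem exists_special {v : ℕ} (hv : v.Prime) (hvp : v ≠ p) (hvM : v ∣ M) (hv2 : ¬ v ^ 2 ∣ M)
    {g : CuspForm (Gamma0 M) 2} (hg : g.IsNewform)
    {jC : O →+* ℂ} (hjθ : jC.comp θ = ConductorLevel.eigenChar hg.1 ∅) :
    ∃ z : O, z ^ 2 = 1 ∧ ∀ A : ValuationSubring (AlgebraicClosure ℚ), A.LiesOverPrime v →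
      ∀ φ, A.IsFrobeniusAt φ v →
        (matOf ((GaloisReps.modelOfCongruence hES).rep ι θ hp) b φ).trace = z * ((v : O) + 1) ∧
        ∀ σ ∈ A.inertiaSubgroupIn ℚ,
          (matOf ((GaloisReps.modelOfCongruence hES).rep ι θ hp) b φ - (z * (v : O)) • 1) *
              (matOf ((GaloisReps.modelOfCongruence hES).rep ι θ hp) b σ - 1) = 0 ∧
            (matOf ((GaloisReps.modelOfCongruence hES).rep ι θ hp) b σ - 1) *
              (matOf ((GaloisReps.modelOfCongruence hES).rep ι θ hp) b φ - z • 1) = 0 :=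
  exists_special_of_model _ b hv hvp hvM (GaloisReps.unipotentAt_modelOfCongruence hES hv hvp
    (Semistable.torsionUnipotentAt hv hvM hv2))
    (NewformLocal.Toric.quarticAt_modelOfCongruence hES hv hvp hv2) hg hjθ

end Fermat.Agent.Two.Galois

end
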