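import Fermat.Agent.Two.Lower.Span
import Fermat.Agent.Deform.Residual
import Fermat.Agent.Arith.Chebotarev.Main
import Fermat.Agent.Arith.RootsOfUnity

/-!
# The residual representation at two of a `TwoCurve`

A prime congruent to `1` with odd Frobenius trace, and the basis in which a representation with the
traces of the curve modulo `2` reduces to the matrices on `W[2]`.
-/

set_option autoImplicit false
set_option synthInstance.maxHeartbeats 400000

noncomputable section

namespace Fermat.Agent.Two.Galois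

open IsLocalRing Module Matrix
open ModularCurve Fermat.Agent.Arith Fermat.Agent.Deform Fermat.Agent.EC.Rep
open Fermat.Agent.Two.Lower (tateMod tateBas tateMat)

/-! ### An element of the image with trace one -/

/-- The commutator of two noncommuting matrices modulo `2` has trace `1`. -/
theorem trace_commutator : ∀ X Y : Matrix (Fin 2) (Fin 2) (ZMod (2 ^ 1)),
    X.det = 1 → Y.det = 1 → X * Y ≠ Y * X →
      (X * Y * !![X 1 1, -X 0 1; -X 1 0, X 0 0] * !![Y 1 1, -Y 0 1; -Y 1 0, Y 0 0]).trace = 1 := by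
  decide

theorem eq_one_of_mul_eq_one_two : ∀ x y : ZMod (2 ^ 1), x * y = 1 → x = 1 := by decide

theorem not_commutative_two : ¬ ((!![0, 1; 0, 0] : Matrix (Fin 2) (Fin 2) (ZMod (2 ^ 1))) *
    !![0, 0; 1, 0] = !![0, 0; 1, 0] * !![0, 1; 0, 0]) := by decide

variable {W : WeierstrassCurve ℤ} [Fact (Nat.Prime 2)]

theorem exists_commutator_trace_one (hW : TwoCurve W) : ∃ x y : GQ,
    (tateMod (p := 2) hW.Δ_ne_zero 1 (x * y * x⁻¹ * y⁻¹)).trace = 1 := by
  set r := tateMod (p := 2) hW.Δ_ne_zero 1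
  have hdet : ∀ g, (r g).det = 1 := fun g => by
    have h : (r g).det * (r g⁻¹).det = 1 := by
      rw [← det_mul, ← map_mul, mul_inv_cancel, map_one, det_one]
    exact eq_one_of_mul_eq_one_two _ _ h
  have hinv : ∀ g, r g⁻¹ = !![r g 1 1, -r g 0 1; -r g 1 0, r g 0 0] := fun g => by
    have h1 : r g⁻¹ * r g = 1 := by rw [← map_mul, inv_mul_cancel, map_one]
    have h2 : (r g).adjugate = r g⁻¹ := by
      have h3 := congrArg (r g⁻¹ * ·) (Matrix.mul_adjugate (r g))
      simp only [hdet, one_smul, mul_one] at h3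
      rwa [← mul_assoc, h1, one_mul] at h3
    rw [← h2, Matrix.adjugate_fin_two]
  by_contra hall
  simp only [not_exists] at hall
  have hcomm : ∀ x y, r x * r y = r y * r x := fun x y => by
    by_contra hne
    refine hall x y ?_
    rw [map_mul, map_mul, map_mul, hinv, hinv]
    exact trace_commutator _ _ (hdet x) (hdet y) hne
  have hall' : ∀ X Y : Matrix (Fin 2) (Fin 2) (ZMod (2 ^ 1)), X * Y = Y * X := by
    intro X Y
    have hspan := Lower.span_tateMod_one hW
    have hX : X ∈ Submodule.span (ZMod (2 ^ 1)) (Set.range r) := hspan ▸ Submodule.mem_top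
    have hY : Y ∈ Submodule.span (ZMod (2 ^ 1)) (Set.range r) := hspan ▸ Submodule.mem_top
    induction hX, hY using Submodule.span_induction₂ with
    | mem_mem x y hx hy =>
      obtain ⟨a, rfl⟩ := hx
      obtain ⟨b, rfl⟩ := hy
      exact hcomm a b
    | zero_left => simp
    | zero_right => simp
    | add_left x y z _ _ _ h1 h2 => rw [add_mul, mul_add, h1, h2]
    | add_right x y z _ _ _ h1 h2 => rw [add_mul, mul_add, h1, h2]
    | smul_left c x y _ _ h => rw [smul_mul_assoc, mul_smul_comm, h]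
    | smul_right c x y _ _ h => rw [smul_mul_assoc, mul_smul_comm, h]
  exact not_commutative_two (hall' _ _)

omit [Fact (Nat.Prime 2)] in
/-- Commutators fix the roots of unity. -/
theorem commutator_root {L : ℕ} [NeZero L] (x y : GQ) {μ : QBar} (hμ : μ ^ L = 1) :
    (x * y * x⁻¹ * y⁻¹) μ = μ := by
  have : NeZero (L : QBar) := ⟨Nat.cast_ne_zero.mpr (NeZero.ne L)⟩
  obtain ⟨ζ, hζ⟩ := (inferInstance : HasEnoughRootsOfUnity QBar L).prim
  have key : ∀ ν : QBar, ν ^ L = 1 → x (y ν) = y (x ν) := by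
    intro ν hν
    obtain ⟨i, -, rfl⟩ := hζ.eq_pow_of_pow_eq_one hν
    obtain ⟨a, -, ha⟩ := hζ.eq_pow_of_pow_eq_one (ξ := x ζ) (by rw [← map_pow, hζ.pow_eq_one, map_one])
    obtain ⟨b, -, hb⟩ := hζ.eq_pow_of_pow_eq_one (ξ := y ζ) (by rw [← map_pow, hζ.pow_eq_one, map_one])
    simp only [map_pow, ← ha, ← hb, ← pow_mul]
    ring_nf
  set ν := (y * x)⁻¹ μ with hν
  have h1 := key ν (by rw [hν, ← map_pow, hμ, map_one])
  show x (y (x⁻¹ (y⁻¹ μ))) = μ
  have h2 : x⁻¹ (y⁻¹ μ) = ν := by rw [hν, _root_.mul_inv_rev]; rfl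
  rw [h2, h1]
  show (y * x) ((y * x)⁻¹ μ) = μ
  rw [← AlgEquiv.mul_apply, mul_inv_cancel, AlgEquiv.one_apply]

/-- **A prime congruent to `1` modulo `L` with odd trace.** -/
theorem exists_prime_odd_ap (hW : TwoCurve W) {L : ℕ} (hL : L ≠ 0) (S : Finset ℕ) :
    ∃ l : ℕ, l.Prime ∧ l ∉ S ∧ W.IsGoodPrimeFor l ∧ l ≠ 2 ∧ (l : ZMod L) = 1 ∧
      ¬ (2 : ℤ) ∣ W.apOfModel l := by
  classical
  have : NeZero L := ⟨hL⟩
  have hΔ := hW.Δ_ne_zero
  obtain ⟨x, y, hxy⟩ := exists_commutator_trace_one hW
  set g := x * y * x⁻¹ * y⁻¹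
  obtain ⟨F, hF, hF'⟩ := Lower.finite_level_tateMod (p := 2) hΔ 1
  have : NeZero (L : QBar) := ⟨Nat.cast_ne_zero.mpr hL⟩
  obtain ⟨ζ, hζ⟩ := (inferInstance : HasEnoughRootsOfUnity QBar L).prim
  have : FiniteDimensional ℚ (IntermediateField.adjoin ℚ {ζ}) :=
    IntermediateField.adjoin.finiteDimensional (Algebra.IsIntegral.isIntegral ζ)
  let L' : IntermediateField ℚ QBar :=
    IntermediateField.normalClosure ℚ (F ⊔ IntermediateField.adjoin ℚ {ζ} : IntermediateField ℚ QBar)
      QBar
  have : Normal ℚ L' := normalClosure.normal ℚ _ QBar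
  have : IsGalois ℚ L' := ⟨⟩
  obtain ⟨l, hl, hlS, A, hA, σ, hσ, heq⟩ := Chebotarev.exists_frobenius_restrict_eq L' g
    (S ∪ W.Δ.natAbs.primeFactors ∪ L.primeFactors ∪ {2})
  simp only [Finset.mem_union, Finset.mem_singleton, not_or, Nat.mem_primeFactors] at hlS
  obtain ⟨⟨⟨hlS, hlΔ⟩, hlL⟩, hl2⟩ := hlS
  have hgood : W.IsGoodPrimeFor l := fun h => hlΔ ⟨hl, Int.natCast_dvd.mp h, Int.natAbs_ne_zero.mpr hΔ⟩
  have hfix : ∀ z ∈ (F ⊔ IntermediateField.adjoin ℚ {ζ} : IntermediateField ℚ QBar),
      (g⁻¹ * σ) z = z := fun z hz =>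
    (Chebotarev.restrictNormalHom_eq_one_iff L').mp (by rw [map_mul, map_inv, heq, inv_mul_cancel])
      z (IntermediateField.le_normalClosure _ hz)
  refine ⟨l, hl, hlS, hgood, hl2, ?_, fun hdvd => ?_⟩
  · have h1 : σ ζ = ζ := by
      have h2 := congrArg g (hfix ζ
        (le_sup_right (a := F) (IntermediateField.mem_adjoin_simple_self ℚ ζ)))
      rw [← AlgEquiv.mul_apply, mul_inv_cancel_left, commutator_root x y hζ.pow_eq_one] at h2
      exact h2
    rw [frobenius_root hA hl hσ hζ.pow_eq_one fun h => hlL ⟨hl, h, hL⟩] at h1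
    rw [← sub_eq_zero, ← Nat.cast_one, ← Nat.cast_sub hl.one_le, ZMod.natCast_eq_zero_iff,
      ← hζ.pow_eq_one_iff_dvd]
    refine mul_left_cancel₀ (hζ.ne_zero hL) ?_
    rw [← pow_succ', Nat.sub_add_cancel hl.one_le, h1, mul_one]
  · have hg : tateMod (p := 2) hΔ 1 σ = tateMod (p := 2) hΔ 1 g := by
      rw [← mul_inv_cancel_left g σ, map_mul,
        hF' _ fun z hz => hfix z (le_sup_left (b := IntermediateField.adjoin ℚ {ζ}) hz), mul_one]
    have ht := (Lower.frobenius_tateMod (p := 2) hΔ 1 hl hgood hl2 hA hσ).1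
    rw [hg, hxy] at ht
    exact one_ne_zero (ht.trans ((ZMod.intCast_zmod_eq_zero_iff_dvd _ _).mpr (by simpa using hdvd)))

/-! ### The two-torsion in coordinates -/

/-- `ZMod (2 ^ 1)` is `ZMod 2`. -/
def powOneHom : ZMod (2 ^ 1) →+* ZMod 2 := ZMod.castHom (dvd_refl _) _

/-- The reduction of the Tate module onto `W[2]`. -/
def redTwo (hΔ : W.Δ ≠ 0) : (tateRep W 2 hΔ).V →+ (residualRep W 2 hΔ).V where
  toFun v := ⟨tateRed hΔ 1 v, (Submodule.mem_torsionBy_iff _ _).mpr (by
    have h := pow_smul_tateRed hΔ 1 v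
    rwa [pow_one] at h)⟩
  map_zero' := Subtype.ext (map_zero _)
  map_add' v w := Subtype.ext (map_add _ v w)

theorem redTwo_smul (hΔ : W.Δ ≠ 0) (c : ℤ_[2]) (v : (tateRep W 2 hΔ).V) :
    redTwo hΔ (c • v) = powOneHom (PadicInt.toZModPow 1 c) • redTwo hΔ v := by
  obtain ⟨a, ha⟩ := ZMod.intCast_surjective (PadicInt.toZModPow 1 c)
  have hc : c - (a : ℤ_[2]) ∈ Ideal.span {(2 : ℤ_[2]) ^ 1} := by
    have h := RingHom.sub_mem_ker_iff (f := (PadicInt.toZModPow 1 : ℤ_[2] →+* _)) (x := c) (y := a)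
    rw [PadicInt.ker_toZModPow, map_intCast, ha] at h
    simpa using h.mpr rfl
  rw [← ha, map_intCast, Int.cast_smul_eq_zsmul]
  exact Subtype.ext (tateRed_smul hΔ hc v)

theorem exists_basis_matRes (hΔ : W.Δ ≠ 0) :
    ∃ bW : Basis (Fin 2) (ZMod 2) (residualRep W 2 hΔ).V,
      ∀ σ, matRes (residualRep W 2 hΔ) bW σ = powOneHom.mapMatrix (tateMod (p := 2) hΔ 1 σ) := by
  classical
  set B := tateBas (p := 2) hΔ
  have hexp : ∀ w, redTwo hΔ w =
      ∑ i, powOneHom (PadicInt.toZModPow 1 (B.repr w i)) • redTwo hΔ (B i) := fun w => by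
    conv_lhs => rw [← B.sum_repr w, map_sum]
    exact Finset.sum_congr rfl fun i _ => redTwo_smul hΔ _ _
  have hsp : ⊤ ≤ Submodule.span (ZMod 2) (Set.range fun i => redTwo hΔ (B i)) := fun x _ => by
    obtain ⟨w, hw⟩ := exists_tateRed_eq (p := 2) hΔ 1 (x := Subtype.val x) (by
      rw [pow_one]; exact (Submodule.mem_torsionBy_iff _ _).mp x.2)
    rw [show x = redTwo hΔ w from Subtype.ext hw.symm, hexp]
    exact Submodule.sum_mem _ fun i _ =>
      Submodule.smul_mem _ _ (Submodule.subset_span ⟨i, rfl⟩)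
  let bW := basisOfTopLeSpanOfCardEqFinrank (fun i => redTwo hΔ (B i)) hsp
    (by rw [Fintype.card_fin, (residualRep W 2 hΔ).finrank_eq])
  refine ⟨bW, fun σ => ?_⟩
  ext i j
  have hb : ∀ k, bW k = redTwo hΔ (B k) := fun k =>
    congrFun (coe_basisOfTopLeSpanOfCardEqFinrank _ hsp _) k
  have hcol : (residualRep W 2 hΔ).ρ σ (bW j) =
      ∑ k, powOneHom.mapMatrix (tateMod (p := 2) hΔ 1 σ) k j • bW k := by
    rw [hb, show (residualRep W 2 hΔ).ρ σ (redTwo hΔ (B j)) =
      redTwo hΔ ((tateRep W 2 hΔ).ρ σ (B j)) from Subtype.ext (red_tateRep hΔ σ 1 (B j)).symm, hexp]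
    refine Finset.sum_congr rfl fun k _ => ?_
    rw [hb, RingHom.mapMatrix_apply, Matrix.map_apply, Lower.tateMod_apply,
      show tateMat (p := 2) hΔ σ k j = B.repr ((tateRep W 2 hΔ).ρ σ (B j)) k from
        LinearMap.toMatrix_apply B B _ k j]
  rw [matRes_apply, hcol, bW.repr_sum_self]

/-! ### Representations with the same traces as a spanning one -/

section TraceEq

set_option linter.unusedSectionVars false

variable {k : Type*} [Field k] {G : Type*} [Monoid G] (M r : G →* Matrix (Fin 2) (Fin 2) k)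

theorem eq_zero_of_trace_eq (hM : Submodule.span k (Set.range M) = ⊤)
    (htr : ∀ g, (r g).trace = (M g).trace) (x : G →₀ k)
    (hx : Finsupp.linearCombination k r x = 0) : Finsupp.linearCombination k M x = 0 := by
  classical
  have key : ∀ Y, (Finsupp.linearCombination k M x * Y).trace = 0 := by
    intro Y
    have hY : Y ∈ Submodule.span k (Set.range M) := hM ▸ Submodule.mem_top
    induction hY using Submodule.span_induction with
    | mem _ hy =>
      obtain ⟨h, rfl⟩ := hy
      have e : (Finsupp.linearCombination k M x * M h).trace =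
          (Finsupp.linearCombination k r x * r h).trace := by
        simp only [Finsupp.linearCombination_apply, Finsupp.sum, Finset.sum_mul,
          Matrix.trace_sum, smul_mul_assoc, Matrix.trace_smul, ← map_mul, htr]
      rw [e, hx, zero_mul, Matrix.trace_zero]
    | zero => simp
    | add a b _ _ ha hb => rw [mul_add, Matrix.trace_add, ha, hb, add_zero]
    | smul c a _ ha => rw [mul_smul_comm, Matrix.trace_smul, ha, smul_zero]
  ext i j
  have h := key (Matrix.single j i 1)
  rw [Matrix.trace_mul_single] at h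
  simpa using h

theorem span_eq_top_of_trace_eq (hM : Submodule.span k (Set.range M) = ⊤)
    (htr : ∀ g, (r g).trace = (M g).trace) : Submodule.span k (Set.range r) = ⊤ := by
  classical
  set lM := Finsupp.linearCombination k (M : G → Matrix (Fin 2) (Fin 2) k)
  set lr := Finsupp.linearCombination k (r : G → Matrix (Fin 2) (Fin 2) k)
  choose s hs using fun Y => show ∃ x, lM x = Y from LinearMap.mem_range.mp (by
    rw [Finsupp.range_linearCombination, hM]; trivial)
  let b := Matrix.stdBasis k (Fin 2) (Fin 2)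
  let T : Matrix (Fin 2) (Fin 2) k →ₗ[k] Matrix (Fin 2) (Fin 2) k := b.constr k fun i => lr (s (b i))
  have hinj : Function.Injective T := by
    refine LinearMap.ker_eq_bot.mp (LinearMap.ker_eq_bot'.mpr fun Y hY => ?_)
    rw [show T Y = lr (∑ i, b.repr Y i • s (b i)) by
      rw [Basis.constr_apply_fintype, map_sum]
      exact Finset.sum_congr rfl fun i _ => by rw [map_smul, b.equivFun_apply]] at hY
    have h := eq_zero_of_trace_eq M r hM htr _ hY
    rw [map_sum] at h
    rw [← b.sum_repr Y, ← h]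
    exact Finset.sum_congr rfl fun i _ => by rw [map_smul, hs]
  refine eq_top_iff.mpr fun X _ => ?_
  obtain ⟨Y, rfl⟩ := LinearMap.surjective_of_injective hinj X
  rw [← Finsupp.range_linearCombination, Basis.constr_apply_fintype]
  exact Submodule.sum_mem _ fun i _ => Submodule.smul_mem _ _ ⟨_, rfl⟩

/-- Two-dimensional representations with the traces of a spanning one are conjugate to it. -/
theorem exists_conj_of_trace_eq (hM : Submodule.span k (Set.range M) = ⊤)
    (htr : ∀ g, (r g).trace = (M g).trace) :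
    ∃ P : Matrix (Fin 2) (Fin 2) k, IsUnit P.det ∧ ∀ g, r g * P = P * M g := by
  classical
  have hr := span_eq_top_of_trace_eq M r hM htr
  set lM := Finsupp.linearCombination k (M : G → Matrix (Fin 2) (Fin 2) k)
  set lr := Finsupp.linearCombination k (r : G → Matrix (Fin 2) (Fin 2) k)
  obtain ⟨s, hs⟩ := lM.exists_rightInverse_of_surjective (by
    rw [Finsupp.range_linearCombination, hM])
  let θ := lr.comp s
  have hθ : ∀ x, θ (lM x) = lr x := fun x => by
    have h0 : lM (s (lM x) - x) = 0 := by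
      rw [map_sub, ← LinearMap.comp_apply lM s, hs, LinearMap.id_apply, sub_self]
    have h1 := eq_zero_of_trace_eq r M hr (fun g => (htr g).symm) _ h0
    rwa [map_sub, sub_eq_zero] at h1
  have hθM : ∀ g, θ (M g) = r g := fun g => by
    simpa [lM, lr] using hθ (Finsupp.single g 1)
  have hinj : Function.Injective θ := by
    refine LinearMap.injective_iff_surjective.mpr fun X => ?_
    obtain ⟨x, rfl⟩ : ∃ x, lr x = X := LinearMap.mem_range.mp (by
      rw [Finsupp.range_linearCombination, hr]; trivial)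
    exact ⟨lM x, hθ x⟩
  have hmul : ∀ X Y, θ (X * Y) = θ X * θ Y := by
    intro X Y
    have hX : X ∈ Submodule.span k (Set.range M) := hM ▸ Submodule.mem_top
    have hY : Y ∈ Submodule.span k (Set.range M) := hM ▸ Submodule.mem_top
    induction hX, hY using Submodule.span_induction₂ with
    | mem_mem a b ha hb =>
      obtain ⟨g, rfl⟩ := ha
      obtain ⟨h, rfl⟩ := hb
      rw [← map_mul, hθM, hθM, hθM, map_mul]
    | zero_left => simp
    | zero_right => simp
    | add_left x y z _ _ _ h1 h2 => rw [add_mul, map_add, map_add, add_mul, h1, h2]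
    | add_right x y z _ _ _ h1 h2 => rw [mul_add, map_add, map_add, mul_add, h1, h2]
    | smul_left c x y _ _ h => rw [smul_mul_assoc, map_smul, map_smul, smul_mul_assoc, h]
    | smul_right c x y _ _ h => rw [mul_smul_comm, map_smul, map_smul, mul_smul_comm, h]
  obtain ⟨c, hc⟩ : ∃ c, θ (single 0 0 1) *ᵥ Pi.single c 1 ≠ 0 := by
    by_contra hall
    simp only [not_exists, not_not] at hall
    have h0 : θ (single 0 0 1) = θ 0 := by
      rw [map_zero]
      ext i j
      simpa using congrFun (hall j) i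
    simpa using congrFun (congrFun (hinj h0) 0) 0
  let P : Matrix (Fin 2) (Fin 2) k := Matrix.of fun i l => θ (single l 0 1) i c
  have hP : ∀ Y, θ Y * P = P * Y := by
    intro Y
    ext i l
    have e1 : Y * single l 0 1 = ∑ m, Y m l • single m 0 (1 : k) := by
      ext a b
      fin_cases a <;> fin_cases b <;> fin_cases l <;>
        simp [Matrix.mul_apply, Fin.sum_univ_two, Matrix.single]
    have h := congrFun (congrFun (congrArg θ e1) i) c
    rw [hmul, map_sum] at h
    simp only [map_smul, Matrix.sum_apply, Matrix.smul_apply, smul_eq_mul] at h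
    rw [Matrix.mul_apply, Matrix.mul_apply]
    simpa [Matrix.mul_apply, P, mul_comm] using h
  refine ⟨P, ?_, fun g => by rw [← hθM]; exact hP (M g)⟩
  rw [isUnit_iff_ne_zero]
  intro h0
  obtain ⟨x, hx, hPx⟩ := Matrix.exists_mulVec_eq_zero_iff.mpr h0
  obtain ⟨m, hm⟩ := Function.ne_iff.mp hx
  refine hc ?_
  have hX : θ (∑ l, x l • single l 0 1) *ᵥ Pi.single c 1 = 0 := by
    rw [map_sum, Matrix.sum_mulVec]
    funext i
    have hi := congrFun hPx i
    simp only [Matrix.mulVec, dotProduct, P, Matrix.of_apply] at hi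
    simp only [map_smul, Finset.sum_apply, Matrix.mulVec_single_one, Matrix.col_apply]
    simpa [mul_comm] using hi
  have e2 : single 0 0 1 = single 0 m (x m)⁻¹ * ∑ l, x l • single l 0 1 := by
    ext a b
    fin_cases a <;> fin_cases b <;> fin_cases m <;>
      simp_all [Matrix.mul_apply, Fin.sum_univ_two, Matrix.single]
  rw [e2, hmul, ← Matrix.mulVec_mulVec, hX, Matrix.mulVec_zero]

end TraceEq

/-! ### The residual basis -/

variable {O : Type} [CommRing O] [IsDomain O] [IsDiscreteValuationRing O]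

/-- **A representation with the traces of the curve modulo `2` reduces to `W[2]`.** -/
theorem exists_residual_basis (hW : TwoCurve W) (hp : (2 : O) ∈ maximalIdeal O)
    (ρ : GaloisRepAdic O) (S : Finset ℕ)
    (hρ : ∀ l : ℕ, l.Prime → l ∉ S → W.IsGoodPrimeFor l → l ≠ 2 →
      ∀ P : ValuationSubring QBar, P.LiesOverPrime l → ∀ σ : GQ, P.IsFrobeniusAt σ l →
        LinearMap.trace O ρ.V (ρ.ρ σ) - (W.apOfModel l : O) ∈ maximalIdeal O) :
    ∃ (b : Basis (Fin 2) O ρ.V) (φ : ZMod 2 →+* ResidueField O)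
      (bW : Basis (Fin 2) (ZMod 2) (residualRep W 2 hW.Δ_ne_zero).V),
      ∀ σ i j, residue O (matOf ρ b σ i j) =
        φ (matRes (residualRep W 2 hW.Δ_ne_zero) bW σ i j) := by
  classical
  have hΔ := hW.Δ_ne_zero
  have h2 : ((2 : ℕ) : ResidueField O) = 0 := by
    rw [← map_natCast (residue O), residue_eq_zero_iff]
    exact_mod_cast hp
  have : CharP (ResidueField O) 2 := (CharP.charP_iff_prime_eq_zero Nat.prime_two).mpr h2
  let φ : ZMod 2 →+* ResidueField O := ZMod.castHom (dvd_refl 2) _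
  obtain ⟨bW, hbW⟩ := exists_basis_matRes (W := W) hΔ
  let M : GQ →* Matrix (Fin 2) (Fin 2) (ResidueField O) :=
    mapM (φ.comp powOneHom) (tateMod (p := 2) hΔ 1)
  have hMbW : ∀ σ i j, M σ i j = φ (matRes (residualRep W 2 hΔ) bW σ i j) := fun σ i j => by
    rw [hbW]; rfl
  let b0 := Module.finBasisOfFinrankEq O ρ.V ρ.finrank_eq
  let r : GQ →* Matrix (Fin 2) (Fin 2) (ResidueField O) := mapM (residue O) (matOf ρ b0)
  -- spanning
  have hMspan : Submodule.span (ResidueField O) (Set.range M) = ⊤ := by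
    set f := φ.comp powOneHom
    have key : ∀ X : Matrix (Fin 2) (Fin 2) (ZMod (2 ^ 1)),
        f.mapMatrix X ∈ Submodule.span (ResidueField O) (Set.range M) := fun X => by
      have hX : X ∈ Submodule.span (ZMod (2 ^ 1)) (Set.range (tateMod (p := 2) hΔ 1)) :=
        Lower.span_tateMod_one hW ▸ Submodule.mem_top
      induction hX using Submodule.span_induction with
      | mem _ hy =>
        obtain ⟨g, rfl⟩ := hy
        exact Submodule.subset_span ⟨g, rfl⟩
      | zero => rw [map_zero]; exact Submodule.zero_mem _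
      | add a c _ _ ha hc => rw [map_add]; exact Submodule.add_mem _ ha hc
      | smul t a _ ha =>
        rw [show f.mapMatrix (t • a) = f t • f.mapMatrix a by ext i j; simp]
        exact Submodule.smul_mem _ _ ha
    refine eq_top_iff.mpr fun X _ => ?_
    rw [Matrix.matrix_eq_sum_single X]
    refine Submodule.sum_mem _ fun i _ => Submodule.sum_mem _ fun j _ => ?_
    rw [show single i j (X i j) = X i j • f.mapMatrix (single i j 1) by
      rw [RingHom.mapMatrix_apply, Matrix.map_single, map_one, Matrix.smul_single, smul_eq_mul,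
        mul_one]]
    exact Submodule.smul_mem _ _ (key _)
  -- traces
  have htr : ∀ g, (r g).trace = (M g).trace := by
    intro g
    obtain ⟨L₁, hL₁, e₁⟩ := isCont_matOf ρ b0 1
    obtain ⟨L₂, hL₂, e₂⟩ := Lower.finite_level_tateMod (p := 2) hΔ 1
    obtain ⟨l, hl, hlS, A, hA, σ, hσ, heq⟩ := Chebotarev.exists_frobenius_eq (r.prod M) (L₁ ⊔ L₂)
      (fun τ hτ => Prod.ext (Matrix.ext fun i j => by
          have h := e₁ τ (fun x hx => hτ x ((le_sup_left : L₁ ≤ L₁ ⊔ L₂) hx)) i j
          rw [pow_one, ← residue_eq_zero_iff, map_sub, sub_eq_zero] at h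
          show residue O (matOf ρ b0 τ i j) = (1 : M2 (ResidueField O)) i j
          rw [h]
          exact congrFun (congrFun (map_one (residue O).mapMatrix) i) j)
        (show mapM _ _ τ = 1 from (congrArg (φ.comp powOneHom).mapMatrix
          (e₂ τ fun x hx => hτ x ((le_sup_right : L₂ ≤ L₁ ⊔ L₂) hx))).trans (map_one _)))
      g (S ∪ W.Δ.natAbs.primeFactors ∪ {2})
    simp only [Finset.mem_union, Finset.mem_singleton, not_or, Nat.mem_primeFactors] at hlS
    obtain ⟨⟨hlS, hlΔ⟩, hl2⟩ := hlS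
    have hgood : W.IsGoodPrimeFor l := fun h =>
      hlΔ ⟨hl, Int.natCast_dvd.mp h, Int.natAbs_ne_zero.mpr hΔ⟩
    have h1 := hρ l hl hlS hgood hl2 A hA σ hσ
    rw [← residue_eq_zero_iff, map_sub, map_intCast, sub_eq_zero,
      LinearMap.trace_eq_matrix_trace O b0] at h1
    have h1' : (r σ).trace = (W.apOfModel l : ResidueField O) :=
      (AddMonoidHom.map_trace (residue O).toAddMonoidHom (matOf ρ b0 σ)).symm.trans h1
    have h3 : (M σ).trace = (W.apOfModel l : ResidueField O) := by
      refine (AddMonoidHom.map_trace (φ.comp powOneHom).toAddMonoidHom (tateMod (p := 2) hΔ 1 σ)).symm.trans ?_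
      show (φ.comp powOneHom) _ = _
      rw [(Lower.frobenius_tateMod (p := 2) hΔ 1 hl hgood hl2 hA hσ).1, map_intCast]
    have er : r σ = r g := congrArg Prod.fst heq
    have eM : M σ = M g := congrArg Prod.snd heq
    rw [← er, ← eM, h1', h3]
  obtain ⟨P, hP, hconj⟩ := exists_conj_of_trace_eq M r hMspan htr
  -- the new basis
  choose Q hQ using fun i j => residue_surjective (R := O) (P i j)
  let Qm : Matrix (Fin 2) (Fin 2) O := Matrix.of Q
  have hQm : (residue O).mapMatrix Qm = P := Matrix.ext hQ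
  let v : Fin 2 → ρ.V := fun j => ∑ i, Qm i j • b0 i
  have htm : b0.toMatrix v = Qm := by
    ext i j
    rw [Basis.toMatrix_apply, b0.repr_sum_self]
  have hu : IsUnit (b0.det v) := by
    rw [Basis.det_apply, htm]
    exact (isUnit_map_iff (residue O) _).mp (by rw [RingHom.map_det, hQm]; exact hP)
  obtain ⟨hli, hsp⟩ := b0.is_basis_iff_det.mpr hu
  refine ⟨Basis.mk hli hsp.ge, φ, bW, fun σ i j => ?_⟩
  set b := Basis.mk hli hsp.ge
  have hbm : b0.toMatrix b = Qm := by rw [Basis.coe_mk, htm]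
  have hconj' : matOf ρ b0 σ * Qm = Qm * matOf ρ b σ := by
    show LinearMap.toMatrix b0 b0 (ρ.ρ σ) * Qm = Qm * LinearMap.toMatrix b b (ρ.ρ σ)
    rw [← hbm, linearMap_toMatrix_mul_basis_toMatrix, basis_toMatrix_mul_linearMap_toMatrix]
  have h4 := congrArg (residue O).mapMatrix hconj'
  rw [map_mul, map_mul, hQm] at h4
  have h5 : P * (residue O).mapMatrix (matOf ρ b σ) = P * M σ := h4.symm.trans (hconj σ)
  have h6 := ((Matrix.isUnit_iff_isUnit_det P).mpr hP).mul_left_cancel h5
  rw [← hMbW, ← h6]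
  rfl

end Fermat.Agent.Two.Galois
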