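import Fermat.Agent.Two.Interface
import Fermat.Agent.Two.Galois.Eigensystem
import Fermat.Agent.Two.Galois.Residual
import Fermat.Agent.Two.Galois.Coeff
import Fermat.Agent.Two.Galois.RepLocal
import Fermat.Agent.Two.Galois.FlatTwo
import Fermat.Agent.GaloisReps.OfInjective
import Fermat.Agent.EichlerShimura.InjectiveProof

/-!
# Eigen systems give newforms with lifts

The classical half of the automorphic input: each eigen system gives an eigenform of level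
`4 * badLevel W * ∏ V` and a newform, whose representation over a common coefficient ring is a
lift of `W[2]`.
-/

set_option autoImplicit false

noncomputable section

namespace Fermat.Agent.Two.Galois

open IsLocalRing Module Polynomial CongruenceSubgroup ModularFormClass
open Fermat.Agent.Deform Fermat.Agent.EC.Rep
open GaloisReps (FullHecke HeckeGaloisModel)

local notation "Q̄" => AlgebraicClosure ℚ

/-- An odd integer is a unit at a place over `2`. -/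
theorem intCast_not_mem_nonunits {A : ValuationSubring ℂ} (h2 : (2 : ℂ) ∈ A.nonunits) {x : ℤ}
    (hx : ¬ (2 : ℤ) ∣ x) : (x : ℂ) ∉ A.nonunits := by
  intro h
  obtain ⟨m, hm⟩ : ∃ m : ℤ, x = 2 * m + 1 := ⟨x / 2, by omega⟩
  rw [ValuationSubring.mem_nonunits_iff] at h h2
  have hm1 : A.valuation (m : ℂ) ≤ 1 :=
    (ValuationSubring.valuation_le_one_iff A _).2 (intCast_mem A m)
  have h2m : A.valuation (2 * (m : ℂ)) < 1 := by
    rw [map_mul]; exact mul_lt_one_of_lt_of_le h2 hm1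
  have h1 := (A.valuation.map_sub (x : ℂ) (2 * (m : ℂ))).trans_lt (max_lt h h2m)
  rw [show (x : ℂ) - 2 * m = 1 by rw [hm]; push_cast; ring, map_one] at h1
  exact lt_irrefl _ h1

/-- **The classical half of the automorphic input.** -/
theorem formsInput : FormsInput := by
  intro W hW V hV c hE
  have : Fact (Nat.Prime 2) := ⟨Nat.prime_two⟩
  have hVa : ∀ v ∈ V, AuxPrime W hW.Δ_ne_zero v 1 := fun v hv => (hV v hv).1
  obtain ⟨hsq, hodd⟩ := squarefree_level hW hVa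
  set N := badLevel W * ∏ v ∈ V, v with hNdef
  unfold EigenSystems at hE
  rw [← hNdef] at hE
  obtain ⟨ι, hι, A, f, lam, u, hc, hA, h1, hu, hlam, hinj⟩ := hE
  have : NeZero N := ⟨hsq.ne_zero⟩
  have hΔN : ∀ q : ℕ, q.Prime → (q : ℤ) ∣ W.Δ → q ∣ N := fun q hq h =>
    ((prime_dvd_badLevel_iff hW.Δ_ne_zero hq).2 h).mul_right _
  have hVN : ∀ v ∈ V, v.Prime ∧ v ∣ N := fun v hv =>
    ⟨(hVa v hv).prime, (Finset.dvd_prod_of_mem _ hv).mul_left _⟩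
  have hgood : ∀ ℓ : ℕ, ℓ.Prime → (¬ ℓ ∣ N ↔ W.IsGoodPrimeFor ℓ ∧ ℓ ∉ V) := fun ℓ hℓ => by
    refine ⟨fun h => ⟨fun hd => h (hΔN ℓ hℓ hd), fun hv => h (hVN ℓ hv).2⟩, fun h hd => ?_⟩
    rcases hℓ.dvd_mul.1 hd with hb | hp
    · exact h.1 ((prime_dvd_badLevel_iff hW.Δ_ne_zero hℓ).1 hb)
    · obtain ⟨v, hv, hℓv⟩ := hℓ.prime.exists_mem_finset_dvd hp
      exact h.2 ((Nat.prime_dvd_prime_iff_eq hℓ (hVN v hv).1).1 hℓv ▸ hv)
  obtain ⟨ℓ₀, hℓ₀, hℓ₀S, hℓ₀g, hℓ₀2, hℓ₀1, hℓ₀a⟩ := exists_prime_odd_ap hW (NeZero.ne N) V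
  have hne : ∀ i, lam i ℓ₀ ≠ ℓ₀ + 1 := fun i he => by
    have hodd₀ := hℓ₀.odd_of_ne_two hℓ₀2
    refine intCast_not_mem_nonunits hA (x := (ℓ₀ : ℤ) + 1 - W.apOfModel ℓ₀) ?_ ?_
    · obtain ⟨k, hk⟩ := hodd₀
      subst hk
      push_cast
      omega
    · have h := ((hlam i ℓ₀ hℓ₀ hℓ₀g hℓ₀2 hℓ₀S).1)
      rw [he] at h
      exact_mod_cast h
  choose h hh hhu hhlam M g hMN hg hgV hglam using fun i => exists_eigenforms hsq hodd hVN (f i)
    (lam i) (u i) (h1 i) (fun v hv => (hu i v hv))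
    (fun ℓ hℓ hℓN hℓ2 => (hlam i ℓ hℓ ((hgood ℓ hℓ).1 hℓN).1 hℓ2 ((hgood ℓ hℓ).1 hℓN).2).2)
    hℓ₀ hℓ₀2 hℓ₀1 (hne i)
  have : ∀ i, NeZero (M i) := fun i =>
    ⟨fun h0 => hsq.ne_zero (Nat.eq_zero_of_zero_dvd (h0 ▸ hMN i))⟩
  have hA' : ((2 : ℕ) : ℂ) ∈ A.nonunits := by exact_mod_cast hA
  obtain ⟨O, _, _, _, _, _, _, _, _, B, j, θ, hB, hj, hjB, hp, hjm, hBA, hθ⟩ :=
    exists_coeff_family (p := 2) M g (fun i => (hg i).1) A hA'
  let D : ∀ i, HeckeGaloisModel (M i) 2 := fun i => GaloisReps.modelOfCongruence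
    (GaloisReps.congruenceProperty_all EichlerShimura.injectiveOnTorsion_all (M i) 2)
  let ρ₀ : ∀ i, GaloisRepAdic O := fun i => (D i).rep (algebraMap ℤ_[2] O) (θ i) hp
  have hM2 : ∀ i, ¬ 2 ∣ M i := fun i h2 => hodd (h2.trans (hMN i))
  have hnotdvd : ∀ i (q : ℕ), q.Prime → W.IsGoodPrimeFor q → q ∉ V → ¬ q ∣ M i :=
    fun i q hq hqg hqV hd => (hgood q hq).2 ⟨hqg, hqV⟩ (hd.trans (hMN i))
  have htr : ∀ i (ℓ : ℕ) (hℓ : ℓ.Prime), W.IsGoodPrimeFor ℓ → ℓ ≠ 2 → ℓ ∉ V →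
      ∀ P : ValuationSubring Q̄, P.LiesOverPrime ℓ → ∀ φ : Gal, P.IsFrobeniusAt φ ℓ →
        j (LinearMap.trace O (ρ₀ i).V ((ρ₀ i).ρ φ)) = lam i ℓ ∧ IsAlgebraic ℚ (lam i ℓ) := by
    intro i ℓ hℓ hℓg hℓ2 hℓV P hP φ hφ
    have hne' : ¬ ℓ ∣ M i * 2 := fun hd => (hℓ.dvd_mul.1 hd).elim (hnotdvd i ℓ hℓ hℓg hℓV)
      fun h' => hℓ2 ((Nat.prime_dvd_prime_iff_eq hℓ Nat.prime_two).1 h')
    have hval : ConductorLevel.eigenChar (hg i).1 ∅ (HeckeDuality.heckeOp (M i) 2 ℓ hℓ) =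
        lam i ℓ := by
      show qCoeff ((HeckeDuality.heckeOp (M i) 2 ℓ hℓ).1 (g i)) 1 = _
      rw [ConductorLevel.heckeOp_eigen (hg i).1 hℓ, HeckeDuality.coeff_smul, (hg i).1.qCoeff_one,
        mul_one, hglam i ℓ hℓ ((hgood ℓ hℓ).2 ⟨hℓg, hℓV⟩) hℓ2]
    refine ⟨?_, ?_⟩
    · show j (LinearMap.trace O _ ((D i).eigenAction (algebraMap ℤ_[2] O) (θ i) φ)) = _
      rw [← hval, ← hθ i, RingHom.comp_apply,
        LinearMap.trace_eq_matrix_trace O ((D i).eigenBasis (θ i)),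
        Matrix.trace_eq_neg_charpoly_coeff, LinearMap.charpoly_toMatrix,
        (D i).charpoly_eigenAction_frobenius _ _ GaloisReps.frobeniusDensity hp hℓ hne' hP hφ]
      simp [Fintype.card_fin]
    · rw [← hval]
      have : Module.Finite ℤ (FullHecke (M i)) := IntegralStructure.heckeAlgebra_finite (M i) 2 ∅
      exact ((Algebra.IsIntegral.isIntegral (R := ℤ)
        (HeckeDuality.heckeOp (M i) 2 ℓ hℓ)).map
          (ConductorLevel.eigenChar (hg i).1 ∅).toIntAlgHom).tower_top.isAlgebraic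
  have hres : ∀ i, ∀ ℓ : ℕ, ℓ.Prime → ℓ ∉ V → W.IsGoodPrimeFor ℓ → ℓ ≠ 2 →
      ∀ P : ValuationSubring Q̄, P.LiesOverPrime ℓ → ∀ σ : Gal, P.IsFrobeniusAt σ ℓ →
        LinearMap.trace O (ρ₀ i).V ((ρ₀ i).ρ σ) - (W.apOfModel ℓ : O) ∈ maximalIdeal O := by
    intro i ℓ hℓ hℓV hℓg hℓ2 P hP σ hσ
    obtain ⟨he, halg⟩ := htr i ℓ hℓ hℓg hℓ2 hℓV P hP σ hσ
    rw [hjm, map_sub, map_intCast, he,
      hBA _ (halg.sub (isAlgebraic_intCast _))]
    exact (hlam i ℓ hℓ hℓg hℓ2 hℓV).1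
  choose b φ bW hb using fun i => exists_residual_basis hW hp (ρ₀ i) V (hres i)
  have hzex : ∀ i v, ∃ z : O, v ∈ V → z ^ 2 = 1 ∧ ∀ P : ValuationSubring Q̄, P.LiesOverPrime v →
      ∀ φ, P.IsFrobeniusAt φ v →
        (matOf (ρ₀ i) (b i) φ).trace = z * ((v : O) + 1) ∧ ∀ σ ∈ P.inertiaSubgroupIn ℚ,
          (matOf (ρ₀ i) (b i) φ - (z * (v : O)) • 1) * (matOf (ρ₀ i) (b i) σ - 1) = 0 ∧
            (matOf (ρ₀ i) (b i) σ - 1) * (matOf (ρ₀ i) (b i) φ - z • 1) = 0 := fun i v => by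
    by_cases hv : v ∈ V
    · obtain ⟨z, hz⟩ := exists_special
        (GaloisReps.congruenceProperty_all EichlerShimura.injectiveOnTorsion_all (M i) 2) (b i)
        (hVN v hv).1 (hVa v hv).ne_two (hgV i v hv)
        (fun hd => (hVN v hv).1.not_isUnit (hsq v (by rw [← pow_two]; exact hd.trans (hMN i))))
        (hg i) (hθ i)
      exact ⟨z, fun _ => hz⟩
    · exact ⟨1, fun h => absurd h hv⟩
  choose z hz using hzex
  unfold ModularFamily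
  rw [show 4 * badLevel W * ∏ v ∈ V, v = 4 * N from mul_assoc _ _ _]
  refine ⟨O, inferInstance, inferInstance, inferInstance, inferInstance, inferInstance,
    inferInstance, ι, hι, B, j, hc, by exact_mod_cast hB, hj, hjB, h,
    fun i => matOf (ρ₀ i) (b i), fun i => isCont_matOf _ _, z, hh, fun i => ?_,
    fun i i' he => hinj i i' ?_ ?_, fun i ℓ hℓ hℓg hℓ2 hℓV P hP σ hσ => ?_⟩
  · refine ⟨⟨φ i, bW i, hb i⟩, detIsCyclotomic_matOf (D i) (b i),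
      fun q hq hq2 hqg hqV P hP σ hσ =>
        matOf_eq_one (D i) (b i) hq (hnotdvd i q hq hqg hqV) hq2 hP hσ,
      fun q hq hqΔ P hP σ hσ => ?_, isFlatAt_matOf_rep_two (hM2 i) hp _ _ (b i),
      fun v hv => (hz i v hv).1, fun v hv => (hz i v hv).2⟩
    have hq2 : q ≠ 2 := fun h2 => hW.two_not_dvd_Δ (by subst h2; exact_mod_cast hqΔ)
    by_cases hqM : q ∣ M i
    · exact sub_one_sq_matOf _ (b i) hq hq2 hqM
        (fun hd => hq.not_isUnit (hsq q (by rw [← pow_two]; exact hd.trans (hMN i)))) hP hσ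
    · rw [matOf_eq_one (D i) (b i) hq hqM hq2 hP hσ, sub_self, mul_zero]
  · intro ℓ hℓ hℓg hℓ2 hℓV
    obtain ⟨P, hP⟩ := Arith.exists_liesOverPrime hℓ
    obtain ⟨σ, hσ⟩ := Arith.exists_isFrobeniusAt hP hℓ
    rw [← (htr i ℓ hℓ hℓg hℓ2 hℓV P hP σ hσ).1, ← (htr i' ℓ hℓ hℓg hℓ2 hℓV P hP σ hσ).1,
      LinearMap.trace_eq_matrix_trace O (b i), LinearMap.trace_eq_matrix_trace O (b i')]
    exact congrArg j (he σ)
  · intro v hv
    have : NeZero (4 * N) := ⟨mul_ne_zero (by norm_num) (NeZero.ne N)⟩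
    rw [← hhu i v hv, ← hhu i' v hv]
    refine sign_unique (hVN v hv).1 ((hVN v hv).2.mul_left 4) (fun hd => ?_) (hh i) (hh i')
      (fun ℓ hℓ hℓ4 => ?_) (by rw [hhu i v hv]; exact (hu i v hv).1)
      (by rw [hhu i' v hv]; exact (hu i' v hv).1)
    · have hcop : (v ^ 2).Coprime 4 :=
        ((Nat.coprime_primes (hVN v hv).1 Nat.prime_two).2 (hVa v hv).ne_two).pow 2 2
      exact (hVN v hv).1.not_isUnit (hsq v (by
        rw [← pow_two]; exact hcop.dvd_of_dvd_mul_left hd))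
    · have hℓN : ¬ ℓ ∣ N := fun hd => hℓ4 (hd.mul_left 4)
      have hℓ2 : ℓ ≠ 2 := fun h2 => hℓ4 (h2 ▸ dvd_mul_of_dvd_left (by norm_num) N)
      obtain ⟨P, hP⟩ := Arith.exists_liesOverPrime hℓ
      obtain ⟨σ, hσ⟩ := Arith.exists_isFrobeniusAt hP hℓ
      obtain ⟨hℓg, hℓV⟩ := (hgood ℓ hℓ).1 hℓN
      rw [hhlam i ℓ hℓ hℓN hℓ2, hhlam i' ℓ hℓ hℓN hℓ2,
        ← (htr i ℓ hℓ hℓg hℓ2 hℓV P hP σ hσ).1, ← (htr i' ℓ hℓ hℓg hℓ2 hℓV P hP σ hσ).1,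
        LinearMap.trace_eq_matrix_trace O (b i), LinearMap.trace_eq_matrix_trace O (b i')]
      exact congrArg j (he σ)
  · rw [hhlam i ℓ hℓ ((hgood ℓ hℓ).2 ⟨hℓg, hℓV⟩) hℓ2, ← (htr i ℓ hℓ hℓg hℓ2 hℓV P hP σ hσ).1,
      LinearMap.trace_eq_matrix_trace O (b i)]
    rfl

end Fermat.Agent.Two.Galois
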