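import Mathlib.Algebra.CharP.Defs
import Mathlib.GroupTheory.GroupAction.Ring
import Mathlib.LinearAlgebra.Matrix.Trace
import Mathlib.RingTheory.SimpleRing.Principal
import Mathlib.Tactic.LinearCombination
import Mathlib.Tactic.NoncommRing

/-!
# Frobenius times unipotent inertia

Multiplying by unipotent inertia does not move the trace of a Frobenius element.
-/

set_option autoImplicit false
set_option linter.unusedSectionVars false

noncomputable section

namespace Fermat.Agent.Two.Galois

/-- Multiplying by unipotent inertia does not move the trace of a Frobenius element. -/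
theorem trace_mul_of_conj {K : Type} [Field K] [CharZero K] {X Y : Matrix (Fin 2) (Fin 2) K}
    {v : ℕ} (hv : 1 < v) (hY : (Y - 1) ^ 2 = 0) (hconj : X * Y = Y ^ v * X) :
    (X * Y).trace = X.trace := by
  obtain ⟨N, rfl⟩ : ∃ N, Y = 1 + N := ⟨Y - 1, (add_sub_cancel _ _).symm⟩
  rw [add_sub_cancel_left] at hY
  have hpow : ∀ m : ℕ, (1 + N) ^ m = 1 + (m : K) • N := by
    intro m
    induction m with
    | zero => simp
    | succ m ih =>
      rw [pow_succ, ih, add_mul, one_mul, smul_mul_assoc, mul_add, mul_one, ← sq, hY, add_zero,
        Nat.cast_succ, add_smul, one_smul]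
      abel
  rw [hpow, mul_add, mul_one, add_mul, one_mul, add_right_inj, smul_mul_assoc] at hconj
  have h := congrArg Matrix.trace hconj
  rw [Matrix.trace_smul, Matrix.trace_mul_comm N, smul_eq_mul] at h
  have hne : (1 - (v : K)) ≠ 0 := sub_ne_zero.mpr fun h1 => by
    have : v = 1 := by exact_mod_cast h1.symm
    omega
  have h0 : (X * N).trace = 0 := (mul_eq_zero.1
    (show (1 - (v : K)) * (X * N).trace = 0 by linear_combination h)).resolve_left hne
  rw [mul_add, mul_one, Matrix.trace_add, h0, add_zero]

end Fermat.Agent.Two.Galois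

end
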