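import Fermat.Agent.RT.GammaH.Coeff
import Fermat.Agent.RT.GammaH.EigenLevel
import Fermat.Agent.RT.GammaH.DescentScalar

/-!
# Forms whose coefficients are supported at multiples of a prime

Such a form of level prime to `v` vanishes: it is invariant under the translation by `1 / v`, hence
under a matrix acting as `τ ↦ τ / v ^ 2 + β`. Of level `v R` it is `E (v τ)`, `E` of level `R`.
-/

set_option autoImplicit false

noncomputable section

open CongruenceSubgroup UpperHalfPlane Matrix.SpecialLinearGroup ModularFormClass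
open scoped MatrixGroups ModularForm

namespace Fermat.Agent.Two.Galois

open RT.GammaH (IsNeb HasCoeff transl translSum hasCoeff_translSum)
open Newforms (mem_gamma0_iff_dvd)

/-- The value of the translation by `x / m` on coefficients. -/
theorem hasCoeff_transl {f : ℍ → ℂ} {a : ℕ → ℂ} (hf : HasCoeff f a) (m : ℕ) [NeZero m]
    (x : ZMod m) :
    HasCoeff (f ∣[(2 : ℤ)] transl m x.val)
      fun n => ZMod.stdAddChar (x * (n : ZMod m)) * a n := by
  classical
  have h := hasCoeff_translSum m (Pi.single x 1) hf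
  have e : translSum m (Pi.single x 1) f = f ∣[(2 : ℤ)] transl m x.val := by
    rw [translSum, Finset.sum_eq_single x (fun y _ hy => by simp [hy])
      (fun h => absurd (Finset.mem_univ x) h), Pi.single_eq_same, one_smul]
  rw [e] at h
  refine h.congr fun n => ?_
  rw [Finset.sum_eq_single x (fun y _ hy => by simp [hy])
    (fun h => absurd (Finset.mem_univ x) h), Pi.single_eq_same, one_mul]

variable {v R : ℕ}

/-- Supported at multiples of `v`: invariant under the translations by multiples of `1 / v`. -/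
theorem slash_transl_eq [NeZero v] {X : ℍ → ℂ} {b : ℕ → ℂ} (hb : HasCoeff X b)
    (hsupp : ∀ n, ¬ v ∣ n → b n = 0) (x : ZMod v) : X ∣[(2 : ℤ)] transl v x.val = X := by
  refine ((hasCoeff_transl hb v x).congr fun n => ?_).ext hb
  by_cases h : v ∣ n
  · rw [(ZMod.natCast_eq_zero_iff n v).2 h, mul_zero, AddChar.map_zero_eq_one, one_mul]
  · rw [hsupp n h, mul_zero]

variable [NeZero R]

/-- A form of level prime to `v` with coefficients supported at multiples of `v` is zero. -/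
theorem eq_zero_of_supported (hv : v.Prime) (hvR : ¬ v ∣ R) {X : ℍ → ℂ} {b : ℕ → ℂ}
    (hX : IsNeb R (1 : DirichletCharacter ℂ 1) X) (hb : HasCoeff X b)
    (hsupp : ∀ n, ¬ v ∣ n → b n = 0) : ∀ n, b n = 0 := by
  have : Fact v.Prime := ⟨hv⟩
  have : NeZero (v * v) := ⟨mul_ne_zero hv.ne_zero hv.ne_zero⟩
  have hvR' : NeZero (v * v * R) := ⟨mul_ne_zero (mul_ne_zero hv.ne_zero hv.ne_zero) (NeZero.ne R)⟩
  obtain ⟨a, c, hac⟩ : IsCoprime ((v : ℤ) - R) ((v : ℤ) * R) := by
    have h : IsCoprime (v : ℤ) R := Nat.isCoprime_iff_coprime.2 (hv.coprime_iff_not_dvd.2 hvR)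
    refine IsCoprime.mul_right ?_ ?_
    · simpa [sub_eq_neg_add] using (h.symm.neg_left).add_mul_right_left 1
    · simpa [sub_eq_add_neg] using h.add_mul_right_left (-1)
  have hdet₁ : (!![a, -c; (v : ℤ) * R, (v : ℤ) - R] : Matrix (Fin 2) (Fin 2) ℤ).det = 1 := by
    rw [Matrix.det_fin_two_of]; linear_combination hac
  have hdet₂ : (!![1, 0; -(R : ℤ), 1] : Matrix (Fin 2) (Fin 2) ℤ).det = 1 := by
    simp [Matrix.det_fin_two_of]
  let γ₁ : SL(2, ℤ) := ⟨_, hdet₁⟩
  let γ₂ : SL(2, ℤ) := ⟨_, hdet₂⟩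
  let e : ZMod (v * v) := ((a - c * v : ℤ) : ZMod (v * v))
  obtain ⟨k, hk⟩ : ((v * v : ℕ) : ℤ) ∣ (a - c * v) - (e.val : ℤ) := by
    rw [← ZMod.intCast_zmod_eq_zero_iff_dvd]
    simp [e]
  have h1 : X ∣[(2 : ℤ)] (mapGL ℝ γ₁ * transl v (1 : ZMod v).val * mapGL ℝ γ₂) = X := by
    have e1 : X ∣[(2 : ℤ)] (mapGL ℝ γ₁ : GL (Fin 2) ℝ) = X :=
      hX.slash_eq_of_trivial (mem_gamma0_iff_dvd.2 (by simp [γ₁]))
    have e2 : X ∣[(2 : ℤ)] (mapGL ℝ γ₂ : GL (Fin 2) ℝ) = X :=
      hX.slash_eq_of_trivial (mem_gamma0_iff_dvd.2 (by simp [γ₂]))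
    rw [SlashAction.slash_mul, SlashAction.slash_mul, e1, slash_transl_eq hb hsupp, e2]
  set dg := ModularForm.heckeDiagMatrix (v * v)
  set T := transl (v * v) ((e.val : ℤ) + (v * v : ℕ) * k)
  have h2 : X ∣[(2 : ℤ)] (mapGL ℝ γ₁ * transl v (1 : ZMod v).val * mapGL ℝ γ₂ * dg) =
      X ∣[(2 : ℤ)] T := by
    refine Newforms.ALData.slash_two_of_smul (Nat.cast_pos.2 hv.pos)
      (RT.GammaH.det_transl_pos _ _) ?_ X
    rw [Units.val_mul, Units.val_mul, Units.val_mul, RT.GammaH.val_transl, RT.GammaH.val_transl,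
      ModularForm.val_heckeDiagMatrix (NeZero.ne _), ZMod.val_one, Newforms.mapGL_eq_realMat,
      Newforms.mapGL_eq_realMat]
    have hac' : (a : ℝ) * ((v : ℝ) - R) + c * ((v : ℝ) * R) = 1 := by exact_mod_cast hac
    have hk' : (a : ℝ) - c * v = (e.val : ℝ) + (v : ℝ) * v * k := by
      have := congrArg (Int.cast : ℤ → ℝ) hk
      push_cast at this
      linear_combination this
    have hv0 : (v : ℝ) ≠ 0 := Nat.cast_ne_zero.2 hv.ne_zero
    ext i j
    fin_cases i <;> fin_cases j <;>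
      simp [γ₁, γ₂, Newforms.realMat, -ZMod.natCast_val, Matrix.mul_apply, Fin.sum_univ_two] <;> field_simp
    · linear_combination hac'
    · linear_combination hk'
    all_goals first | exact Or.inl trivial | exact Or.inl (by ring) | ring
  have h3 : X ∣[(2 : ℤ)] T = X ∣[(2 : ℤ)] dg := by
    rw [← h2, SlashAction.slash_mul, h1]
  have h4 : HasCoeff (X ∣[(2 : ℤ)] T) fun n =>
      ZMod.stdAddChar (e * (n : ZMod (v * v))) * b n := by
    have h := hasCoeff_transl hb (v * v) e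
    have hT : X ∣[(2 : ℤ)] T = X ∣[(2 : ℤ)] transl (v * v) e.val := by
      have hm : ((v * v : ℕ) : ℝ) ≠ 0 := Nat.cast_ne_zero.2 (NeZero.ne _)
      obtain ⟨δ, hδ⟩ : ∃ δ : SL(2, ℤ), δ = ModularGroup.T ^ k := ⟨_, rfl⟩
      have hδX : X ∣[(2 : ℤ)] (mapGL ℝ δ : GL (Fin 2) ℝ) = X :=
        hX.slash_eq_of_trivial (mem_gamma0_iff_dvd.2 (by simp [hδ, ModularGroup.coe_T_zpow]))
      have hTe : T = mapGL ℝ δ * transl (v * v) e.val := by
        refine Units.ext ?_
        rw [Units.val_mul, RT.GammaH.val_transl, RT.GammaH.val_transl]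
        ext i j
        fin_cases i <;> fin_cases j <;>
          simp [hδ, ModularGroup.coe_T_zpow, Matrix.mul_apply, Fin.sum_univ_two, -map_zpow]
        have hv0 : (v : ℝ) ≠ 0 := Nat.cast_ne_zero.2 hv.ne_zero
        field_simp
      rw [hTe, SlashAction.slash_mul, hδX]
    rwa [hT]
  have h5 : IsNeb (v * v * R) (1 : DirichletCharacter ℂ 1) (X ∣[(2 : ℤ)] dg) := by
    refine ⟨?_, fun γ hγ => ?_⟩
    · show Newforms.IsCuspFn 2 (X ∣[(2 : ℤ)] ModularForm.heckeDiagMatrix (v * v))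
      rw [Newforms.heckeDiagMatrix_eq_ratGL (NeZero.ne _)]
      exact hX.cusp.slash _
    · rw [MulChar.one_apply (isUnit_of_subsingleton _), one_smul]
      exact Newforms.slash_heckeDiag_inv (NeZero.ne _)
        (fun γ h _ => hX.slash_eq_of_trivial (mem_gamma0_iff_dvd.2 h)) hγ
  have hrec := h5.coeff_unique (one_dvd _) (h3 ▸ h4)
    (RT.GammaH.hasCoeff_slash_diag hb (NeZero.ne (v * v)))
  intro n
  induction n using Nat.strong_induction_on with
  | _ n ih =>
    have hn := hrec n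
    have hχ : ZMod.stdAddChar (e * (n : ZMod (v * v))) ≠ 0 :=
      ((ZMod.stdAddChar (N := v * v)).val_isUnit _).ne_zero
    rcases Nat.eq_zero_or_pos n with rfl | hpos
    · simp only [Nat.cast_zero, mul_zero, AddChar.map_zero_eq_one, one_mul, dvd_zero, if_true,
        Nat.zero_div] at hn
      have hne : ((v * v : ℕ) : ℂ) ≠ 1 := by
        norm_cast
        exact (Nat.one_lt_mul_iff.2 ⟨hv.pos, hv.pos, Or.inl hv.one_lt⟩).ne'
      by_contra h0
      exact hne (mul_right_cancel₀ h0 (by rw [one_mul]; exact hn.symm))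
    · split_ifs at hn with hd
      · rw [ih _ (Nat.div_lt_self hpos (Nat.one_lt_mul_iff.2 ⟨hv.pos, hv.pos, Or.inl hv.one_lt⟩)),
          mul_zero] at hn
        exact (mul_eq_zero.1 hn).resolve_left hχ
      · exact (mul_eq_zero.1 hn).resolve_left hχ

/-- A form of level `v R` supported at multiples of `v` comes from level `R` through `τ ↦ v τ`. -/
theorem exists_descend (hv : v.Prime) {X : ℍ → ℂ} {b : ℕ → ℂ}
    (hX : IsNeb (v * R) (1 : DirichletCharacter ℂ 1) X) (hb : HasCoeff X b)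
    (hsupp : ∀ n, ¬ v ∣ n → b n = 0) :
    ∃ E : ℍ → ℂ, IsNeb R (1 : DirichletCharacter ℂ 1) E ∧ HasCoeff E fun n => b (n * v) := by
  have : Fact v.Prime := ⟨hv⟩
  have : NeZero (v * R) := ⟨mul_ne_zero hv.ne_zero (NeZero.ne R)⟩
  refine ⟨ModularForm.heckeU 2 v X, ⟨?_, fun γ hγ => ?_⟩,
    hX.hasCoeff_heckeU (one_dvd _) hb hv.ne_zero⟩
  · refine Finset.sum_induction _ (Newforms.IsCuspFn 2) (fun _ _ => Newforms.IsCuspFn.add)
      Newforms.IsCuspFn.zero fun j _ => ?_
    rw [Newforms.heckeMatrix_eq_ratGL hv.ne_zero]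
    exact hX.cusp.slash _
  rw [MulChar.one_apply (isUnit_of_subsingleton _), one_smul]
  set Y := X ∣[(2 : ℤ)] ModularForm.heckeMatrix v 0 with hY
  have hj : ∀ j ∈ Finset.range v, X ∣[(2 : ℤ)] ModularForm.heckeMatrix v j = Y := by
    intro j hj
    have he : ModularForm.heckeMatrix v j =
        transl v ((j : ZMod v).val : ℤ) * ModularForm.heckeMatrix v 0 := by
      refine Units.ext ?_
      rw [Units.val_mul, RT.GammaH.val_transl, ModularForm.val_heckeMatrix hv.ne_zero,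
        ModularForm.val_heckeMatrix hv.ne_zero, ZMod.val_natCast,
        Nat.mod_eq_of_lt (Finset.mem_range.1 hj)]
      have hv0 : (v : ℝ) ≠ 0 := Nat.cast_ne_zero.2 hv.ne_zero
      ext i k
      fin_cases i <;> fin_cases k <;> simp [Matrix.mul_apply, Fin.sum_univ_two, hv0]
    rw [he, SlashAction.slash_mul, slash_transl_eq hb hsupp]
  have hU : ModularForm.heckeU 2 v X = v • Y := by
    rw [ModularForm.heckeU, Finset.sum_congr rfl hj, Finset.sum_const, Finset.card_range]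
  rw [hU, ← Nat.cast_smul_eq_nsmul ℂ, ModularForm.SL_smul_slash]
  congr 1
  -- the invariance of `Y`
  have hup : ∀ δ : SL(2, ℤ), δ ∈ Gamma0 R → (v : ℤ) ∣ δ 0 1 → Y ∣[(2 : ℤ)] δ = Y := by
    intro δ hδ hb'
    obtain ⟨b', hb'⟩ := hb'
    obtain ⟨c', hc'⟩ := mem_gamma0_iff_dvd.1 hδ
    have hdet := Matrix.det_fin_two (δ : Matrix (Fin 2) (Fin 2) ℤ)
    rw [δ.det_coe, hb', hc'] at hdet
    let δ' : SL(2, ℤ) := ⟨!![δ 0 0, b'; (v : ℤ) * R * c', δ 1 1], by
      rw [Matrix.det_fin_two_of]; linear_combination -hdet⟩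
    have he : ModularForm.heckeMatrix v 0 * mapGL ℝ δ =
        mapGL ℝ δ' * ModularForm.heckeMatrix v 0 := by
      refine Units.ext ?_
      rw [Units.val_mul, Units.val_mul, ModularForm.val_heckeMatrix hv.ne_zero,
        Newforms.mapGL_eq_realMat, Newforms.mapGL_eq_realMat]
      ext i j
      fin_cases i <;> fin_cases j <;>
        simp [δ', Newforms.realMat, Matrix.mul_apply, Fin.sum_univ_two, hb', hc'] <;> ring
    have hδ' : X ∣[(2 : ℤ)] (mapGL ℝ δ' : GL (Fin 2) ℝ) = X :=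
      hX.slash_eq_of_trivial (mem_gamma0_iff_dvd.2 ⟨c', by simp [δ']⟩)
    rw [hY, ModularForm.SL_slash, ← SlashAction.slash_mul]
    show X ∣[(2 : ℤ)] (ModularForm.heckeMatrix v 0 * mapGL ℝ δ) = _
    rw [he, SlashAction.slash_mul, hδ']
  have hT : Y ∣[(2 : ℤ)] ModularGroup.T = Y := by
    have he : ModularForm.heckeMatrix v 0 * mapGL ℝ ModularGroup.T =
        transl v ((1 : ZMod v).val : ℤ) * ModularForm.heckeMatrix v 0 := by
      refine Units.ext ?_
      rw [Units.val_mul, Units.val_mul, RT.GammaH.val_transl,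
        ModularForm.val_heckeMatrix hv.ne_zero, ZMod.val_one]
      have hv0 : (v : ℝ) ≠ 0 := Nat.cast_ne_zero.2 hv.ne_zero
      ext i k
      fin_cases i <;> fin_cases k <;>
        simp [ModularGroup.coe_T, Matrix.mul_apply, Fin.sum_univ_two, hv0]
    rw [hY, ModularForm.SL_slash, ← SlashAction.slash_mul]
    show X ∣[(2 : ℤ)] (ModularForm.heckeMatrix v 0 * mapGL ℝ ModularGroup.T) = _
    rw [he, SlashAction.slash_mul, slash_transl_eq hb hsupp]
  let G : Subgroup SL(2, ℤ) :=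
    { carrier := {g | Y ∣[(2 : ℤ)] g = Y}
      one_mem' := SlashAction.slash_one _ _
      mul_mem' := fun {g h} hg hh => by
        show Y ∣[(2 : ℤ)] (g * h) = Y
        rw [SlashAction.slash_mul, hg, hh]
      inv_mem' := fun {g} hg => by
        show Y ∣[(2 : ℤ)] g⁻¹ = Y
        conv_lhs => rw [← hg]
        rw [← SlashAction.slash_mul, mul_inv_cancel, SlashAction.slash_one] }
  have hTG : ModularGroup.T ∈ G := hT
  have hT0 : ∀ j : ℤ, ModularGroup.T ^ j ∈ Gamma0 R := fun j =>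
    mem_gamma0_iff_dvd.2 (by simp [ModularGroup.coe_T_zpow])
  have key : ∀ δ : SL(2, ℤ), δ ∈ Gamma0 R → ¬ (v : ℤ) ∣ δ 0 0 → δ ∈ G := by
    intro δ hδ ha
    have ha' : ((δ 0 0 : ℤ) : ZMod v) ≠ 0 := fun h =>
      ha ((ZMod.intCast_zmod_eq_zero_iff_dvd _ _).1 h)
    set j : ℤ := ((((δ 0 1 : ℤ) : ZMod v) / ((δ 0 0 : ℤ) : ZMod v)).val : ℤ)
    have hmem : δ * ModularGroup.T ^ (-j) ∈ G := by
      refine hup _ (mul_mem hδ (hT0 _)) ?_
      rw [← ZMod.intCast_zmod_eq_zero_iff_dvd]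
      simp [j, ModularGroup.coe_T_zpow, Matrix.mul_apply, Fin.sum_univ_two, -map_zpow]
      field_simp
      ring
    have h := mul_mem hmem (zpow_mem hTG j)
    rwa [mul_assoc, ← zpow_add, neg_add_cancel, zpow_zero, mul_one] at h
  show γ ∈ G
  by_cases ha : (v : ℤ) ∣ γ 0 0
  · have h := key (ModularGroup.T * γ) (mul_mem (by simp) hγ) fun h => by
      simp [ModularGroup.coe_T, Matrix.mul_apply, Fin.sum_univ_two] at h
      have hc : (v : ℤ) ∣ γ 1 0 := (dvd_add_right ha).1 h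
      have h1 : (v : ℤ) ∣ 1 := by
        rw [show (1 : ℤ) = γ 0 0 * γ 1 1 - γ 0 1 * γ 1 0 by rw [← Matrix.det_fin_two, γ.det_coe]]
        exact dvd_sub (ha.mul_right _) (hc.mul_left _)
      exact hv.not_dvd_one (Int.natCast_dvd_natCast.1 (by simpa using h1))
    simpa [← mul_assoc] using mul_mem (inv_mem hTG) h
  · exact key γ hγ ha

end Fermat.Agent.Two.Galois
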